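import Mathlib

/-!
# S22 — abstract algebra: a ring of operators with a stable, separating, f.g. dual lattice is a
finitely generated `ℤ`-module
-/

set_option autoImplicit false

namespace Fermat.Agent.S22

theorem comp_mem_of_mem_adjoin {V : Type*} [AddCommGroup V] [Module ℂ V]
    (gens : Set (Module.End ℂ V)) (M : Submodule ℤ (Module.Dual ℂ V))
    (hstab : ∀ g ∈ gens, ∀ φ ∈ M, φ ∘ₗ g ∈ M) {t : Module.End ℂ V}
    (ht : t ∈ Algebra.adjoin ℤ gens) : ∀ φ ∈ M, φ ∘ₗ t ∈ M := by
  induction ht using Algebra.adjoin_induction with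
  | mem x hx => exact hstab x hx
  | algebraMap r =>
    intro φ hφ
    have : φ ∘ₗ (algebraMap ℤ (Module.End ℂ V) r) = r • φ := by
      ext v
      simp
    rw [this]
    exact M.smul_mem r hφ
  | add x y _ _ hx hy =>
    intro φ hφ
    rw [LinearMap.comp_add]
    exact add_mem (hx φ hφ) (hy φ hφ)
  | mul x y _ _ hx hy =>
    intro φ hφ
    have : φ ∘ₗ (x * y) = (φ ∘ₗ x) ∘ₗ y := rfl
    rw [this]
    exact hy _ (hx φ hφ)

theorem finite_adjoin_of_dual_lattice {V : Type*} [AddCommGroup V] [Module ℂ V]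
    (gens : Set (Module.End ℂ V)) (M : Submodule ℤ (Module.Dual ℂ V)) (hM : M.FG)
    (hstab : ∀ g ∈ gens, ∀ φ ∈ M, φ ∘ₗ g ∈ M)
    (hsep : ∀ v : V, (∀ φ ∈ M, φ v = 0) → v = 0) :
    Module.Finite ℤ (Algebra.adjoin ℤ gens) := by
  have : Module.Finite ℤ M := Module.Finite.iff_fg.mpr hM
  let Φ : (Algebra.adjoin ℤ gens) →ₗ[ℤ] (M →ₗ[ℤ] M) :=
    { toFun := fun t =>
        { toFun := fun φ => ⟨(φ : Module.Dual ℂ V) ∘ₗ (t : Module.End ℂ V),
            comp_mem_of_mem_adjoin gens M hstab t.2 φ φ.2⟩
          map_add' := fun φ ψ => by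
            apply Subtype.ext
            simp [LinearMap.add_comp]
          map_smul' := fun r φ => by
            apply Subtype.ext
            ext v
            simp }
      map_add' := fun s t => by
        ext φ v
        simp
      map_smul' := fun r t => by
        ext φ v
        simp }
  have hinj : Function.Injective Φ := by
    intro s t hst
    apply Subtype.ext
    ext v
    apply sub_eq_zero.mp
    apply hsep
    intro φ hφ
    have h1 := congrArg (fun F : M →ₗ[ℤ] M => ((F ⟨φ, hφ⟩ : M) : Module.Dual ℂ V) v) hst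
    simp only [Φ, LinearMap.coe_mk, AddHom.coe_mk, LinearMap.comp_apply] at h1
    rw [map_sub, h1, sub_self]
  exact Module.Finite.of_injective Φ hinj

end Fermat.Agent.S22
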