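import Fermat.Agent.S22.Cocycle
import Fermat.Prelude.Sol.S_ModularForm_heckeT_slash_eq_self_of_mem_Gamma0

/-!
# S22 — the period lattice is stable under the Hecke operators

Key facts (with `F = E f`, weight `k = n + 2`, `δ` running over the coset representatives
`heckeMatrix ℓ j` (`j < ℓ`) and `heckeDiagMatrix ℓ`, all of determinant `ℓ`):

* `E (T_ℓ f) = ℓ^(n+1) • ∑ δ, F ∣[-n] δ`   (uniqueness of Eichler integrals + `bol`);
* for `γ ∈ Γ₀(N)`: `δ γ = γ_δ δ'` with `γ_δ ∈ Γ₀(N)` and `δ ↦ δ'` a permutation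
  (Prelude: `HeckeSlashInvariance.heckeRep_mul`, `heckeMatrix_mul_of_dvd`);
* hence `periodPoly (T_ℓ f) γ = ∑ δ, polyAct n A_{δ'} (periodPoly f γ_δ)` where `A_{δ'}` is the
  integer matrix of `δ'`  (`slash_polyFun` with `det = ℓ`).
-/

set_option autoImplicit false

namespace Fermat.Agent.S22

open UpperHalfPlane hiding I
open Complex
open scoped Manifold MatrixGroups ModularForm Topology
open Derivative
open P2MW.S_ModularForm_heckeT_slash_eq_self_of_mem_Gamma0.ModularForm.HeckeSlashInvariance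

variable (N : ℕ) [NeZero N] (n : ℕ)

/-! ### auxiliary lemmas -/

theorem isZeroAtImInfty_finset_sum {ι : Type*} (s : Finset ι) {F : ι → ℍ → ℂ}
    (h : ∀ i ∈ s, IsZeroAtImInfty (F i)) : IsZeroAtImInfty (∑ i ∈ s, F i) :=
  (zeroAtImInftySubmodule ℂ).sum_mem h

theorem isZeroAtImInfty_const_smul (c : ℂ) {F : ℍ → ℂ} (h : IsZeroAtImInfty F) :
    IsZeroAtImInfty (c • F) :=
  (zeroAtImInftySubmodule ℂ).smul_mem c h

/-- General form of `E_heckeT` / `E_heckeU`: if `g = ∑ x, f ∣[n+2] α x` for upper triangular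
matrices `α x` of determinant `p`, then `E g = p^(n+1) • ∑ x, E f ∣[-n] α x`. -/
theorem E_hecke_general {ι : Type*} (s : Finset ι) (α : ι → GL (Fin 2) ℝ) (p : ℕ) (hp : 0 < p)
    (hα0 : ∀ x ∈ s, (α x) 1 0 = 0) (hdet : ∀ x ∈ s, (α x).val.det = p)
    (f g : CuspForm (CongruenceSubgroup.Gamma0 N) ((n : ℤ) + 2))
    (hg : ⇑g = ∑ x ∈ s, (⇑f ∣[((n : ℤ) + 2)] α x)) :
    E N n g = ((p : ℂ) ^ (n + 1)) • ∑ x ∈ s, E N n f ∣[(-(n : ℤ))] α x := by
  obtain ⟨hE1, hE2, hE3⟩ := E_spec N n f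
  have hpC : (p : ℂ) ≠ 0 := by exact_mod_cast hp.ne'
  have hmd : ∀ x ∈ s, MDiff (E N n f ∣[(-(n : ℤ))] α x) := fun x _ => hE1.slash _ _
  have hmds : MDiff (∑ x ∈ s, E N n f ∣[(-(n : ℤ))] α x) := mdiff_finset_sum s hmd
  refine eichler_eq (mdiff_const_smul _ hmds) (isZeroAtImInfty_const_smul _
    (isZeroAtImInfty_finset_sum s fun x hx => hE2.slash _ (hα0 x hx))) ?_
  rw [iterD_smul _ _ hmds, iterD_sum s _ hmd, hg, Finset.smul_sum]
  refine Finset.sum_congr rfl fun x hx => ?_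
  have hdx : (0 : ℝ) < (α x).val.det := by rw [hdet x hx]; exact_mod_cast hp
  rw [bol n hE1 hdx, hE3, hdet x hx, smul_smul]
  have : (p : ℂ) ^ (n + 1) * (((p : ℝ) : ℂ))⁻¹ ^ (n + 1) = 1 := by
    rw [← mul_pow]
    push_cast
    rw [mul_inv_cancel₀ hpC, one_pow]
  rw [this, one_smul]

/-- General stability statement: coefficient functionals composed with an operator of Hecke type
stay in the period lattice. -/
theorem periodCoeff_comp_mem_general {ι : Type*} [Fintype ι] (α : ι → GL (Fin 2) ℝ)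
    (A : ι → Matrix (Fin 2) (Fin 2) ℤ) (p : ℕ) (hp : 0 < p)
    (hαA : ∀ x i j, (α x).val i j = (A x i j : ℝ)) (hdet : ∀ x, (α x).val.det = p)
    (T : CuspForm (CongruenceSubgroup.Gamma0 N) ((n : ℤ) + 2) →ₗ[ℂ]
      CuspForm (CongruenceSubgroup.Gamma0 N) ((n : ℤ) + 2))
    (hE : ∀ f, E N n (T f) = ((p : ℂ) ^ (n + 1)) • ∑ x, E N n f ∣[(-(n : ℤ))] α x)
    (σ : Equiv.Perm ι) (γ : CongruenceSubgroup.Gamma0 N) (γ' : ι → CongruenceSubgroup.Gamma0 N)
    (hmul : ∀ x, α x * Matrix.SpecialLinearGroup.mapGL ℝ (γ : SL(2, ℤ)) =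
      Matrix.SpecialLinearGroup.mapGL ℝ (γ' x : SL(2, ℤ)) * α (σ x))
    (j : ℕ) :
    periodCoeff N n γ j ∘ₗ T ∈ periodLattice N n := by
  classical
  have hpC : (p : ℂ) ≠ 0 := by exact_mod_cast hp.ne'
  refine mem_periodLattice_of_int_comb N n _ Finset.univ γ'
    (fun x i => polyActCoeff n (A (σ x)) j i) fun f => ?_
  have key : periodPoly N n (T f) γ =
      ∑ x, polyAct n (A (σ x)) (periodPoly N n f (γ' x)) := by
    refine polyOf_eq fun z => ?_
    have h1 : E N n (T f) ∣[(-(n : ℤ))] (γ : SL(2, ℤ)) =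
        ((p : ℂ) ^ (n + 1)) • ∑ x, (E N n f ∣[(-(n : ℤ))] (γ' x : SL(2, ℤ))) ∣[(-(n : ℤ))] α (σ x) := by
      rw [hE f, ModularForm.SL_smul_slash, ModularForm.SL_slash, SlashAction.sum_slash]
      congr 1
      refine Finset.sum_congr rfl fun x _ => ?_
      have hmul' : α x * ((γ : SL(2, ℤ)) : GL (Fin 2) ℝ) =
          ((γ' x : SL(2, ℤ)) : GL (Fin 2) ℝ) * α (σ x) := hmul x
      rw [← SlashAction.slash_mul, hmul', SlashAction.slash_mul, ← ModularForm.SL_slash]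
    have h2 : E N n (T f) =
        ((p : ℂ) ^ (n + 1)) • ∑ x, E N n f ∣[(-(n : ℤ))] α (σ x) := by
      rw [hE f]
      congr 1
      exact (Equiv.sum_comp σ fun x => E N n f ∣[(-(n : ℤ))] α x).symm
    have h3 : ∀ x, (E N n f ∣[(-(n : ℤ))] (γ' x : SL(2, ℤ))) ∣[(-(n : ℤ))] α (σ x)
        - E N n f ∣[(-(n : ℤ))] α (σ x) =
        fun z : ℍ => (((p : ℂ))⁻¹ ^ (n + 1)) *
          (polyAct n (A (σ x)) (periodPoly N n f (γ' x))).eval (z : ℂ) := by
      intro x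
      obtain ⟨hdeg, hev⟩ := periodPoly_spec N n f (γ' x).2
      have hfun : E N n f ∣[(-(n : ℤ))] (γ' x : SL(2, ℤ)) - E N n f =
          fun z : ℍ => (periodPoly N n f (γ' x)).eval (z : ℂ) := by
        funext z; exact hev z
      have hdx : (0 : ℝ) < (α (σ x)).val.det := by rw [hdet]; exact_mod_cast hp
      have := slash_polyFun n (A (σ x)) (α (σ x)) (hαA (σ x)) hdx _ hdeg
      rw [← hfun, sub_eq_add_neg, SlashAction.add_slash, SlashAction.neg_slash,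
        ← sub_eq_add_neg, hdet] at this
      rw [this]
      push_cast
      rfl
    have h4 : E N n (T f) ∣[(-(n : ℤ))] (γ : SL(2, ℤ)) - E N n (T f) =
        fun z : ℍ => ∑ x, (polyAct n (A (σ x)) (periodPoly N n f (γ' x))).eval (z : ℂ) := by
      rw [h1, h2, ← smul_sub, ← Finset.sum_sub_distrib]
      simp_rw [h3]
      funext z
      simp only [Pi.smul_apply, Finset.sum_apply, smul_eq_mul, ← Finset.mul_sum]
      rw [← mul_assoc, ← mul_pow, mul_inv_cancel₀ hpC, one_pow, one_mul]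
    rw [congrFun h4 z, Polynomial.eval_finsetSum]
  show (periodPoly N n (T f) γ).coeff j = _
  rw [key, Polynomial.finsetSum_coeff]
  refine Finset.sum_congr rfl fun x _ => ?_
  rw [coeff_polyAct]

/-! ### integer matrices of the Hecke representatives -/

theorem heckeMatrix_val_eq {p : ℕ} (hp : p ≠ 0) (j : ℕ) (a b : Fin 2) :
    (ModularForm.heckeMatrix p j).val a b =
      (((!![1, (j : ℤ); 0, (p : ℤ)] : Matrix (Fin 2) (Fin 2) ℤ) a b : ℤ) : ℝ) := by
  rw [ModularForm.val_heckeMatrix hp]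
  fin_cases a <;> fin_cases b <;> simp

theorem heckeDiagMatrix_val_eq {p : ℕ} (hp : p ≠ 0) (a b : Fin 2) :
    (ModularForm.heckeDiagMatrix p).val a b =
      (((!![(p : ℤ), 0; 0, 1] : Matrix (Fin 2) (Fin 2) ℤ) a b : ℤ) : ℝ) := by
  rw [ModularForm.val_heckeDiagMatrix hp]
  fin_cases a <;> fin_cases b <;> simp

theorem heckeMatrix_val_det {p : ℕ} (hp : p ≠ 0) (j : ℕ) :
    (ModularForm.heckeMatrix p j).val.det = p := by
  rw [← Matrix.GeneralLinearGroup.val_det_apply]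
  exact ModularForm.det_heckeMatrix hp j

theorem heckeDiagMatrix_val_det {p : ℕ} (hp : p ≠ 0) :
    (ModularForm.heckeDiagMatrix p).val.det = p := by
  rw [← Matrix.GeneralLinearGroup.val_det_apply]
  exact ModularForm.det_heckeDiagMatrix hp

/-- Integer matrix of `heckeRep p x`. -/
noncomputable def heckeRepInt (p : ℕ) (x : OnePoint (ZMod p)) : Matrix (Fin 2) (Fin 2) ℤ :=
  x.elim !![(p : ℤ), 0; 0, 1] (fun j => !![1, (j.val : ℤ); 0, (p : ℤ)])

theorem heckeRep_val_eq {p : ℕ} (hp : p ≠ 0) (x : OnePoint (ZMod p)) (a b : Fin 2) :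
    (heckeRep p x).val a b = ((heckeRepInt p x a b : ℤ) : ℝ) := by
  induction x using OnePoint.rec with
  | infty => exact heckeDiagMatrix_val_eq hp a b
  | coe j => exact heckeMatrix_val_eq hp j.val a b

theorem heckeRep_val_det {p : ℕ} (hp : p ≠ 0) (x : OnePoint (ZMod p)) :
    (heckeRep p x).val.det = p := by
  induction x using OnePoint.rec with
  | infty => exact heckeDiagMatrix_val_det hp
  | coe j => exact heckeMatrix_val_det hp j.val

theorem heckeRep_one_zero {p : ℕ} (hp : p ≠ 0) (x : OnePoint (ZMod p)) :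
    (heckeRep p x) 1 0 = 0 := by
  have := heckeRep_val_eq hp x 1 0
  induction x using OnePoint.rec with
  | infty => simpa [heckeRepInt] using this
  | coe j => simpa [heckeRepInt] using this

/-! ### the statements -/

theorem E_heckeT_onePoint {ℓ : ℕ} [NeZero ℓ] (hℓ : ℓ.Prime) (hℓN : ¬ ℓ ∣ N)
    (f : CuspForm (CongruenceSubgroup.Gamma0 N) ((n : ℤ) + 2)) :
    E N n (CuspForm.heckeTLin ((n : ℤ) + 2) hℓ hℓN f) =
      ((ℓ : ℂ) ^ (n + 1)) • ∑ x : OnePoint (ZMod ℓ), E N n f ∣[(-(n : ℤ))] heckeRep ℓ x := by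
  refine E_hecke_general N n Finset.univ (heckeRep ℓ) ℓ hℓ.pos
    (fun x _ => heckeRep_one_zero hℓ.ne_zero x) (fun x _ => heckeRep_val_det hℓ.ne_zero x) f _ ?_
  rw [CuspForm.coe_heckeTLin_apply, heckeT_eq_sum_onePoint]

theorem E_heckeT {ℓ : ℕ} (hℓ : ℓ.Prime) (hℓN : ¬ ℓ ∣ N)
    (f : CuspForm (CongruenceSubgroup.Gamma0 N) ((n : ℤ) + 2)) :
    E N n (CuspForm.heckeTLin ((n : ℤ) + 2) hℓ hℓN f) =
      ((ℓ : ℂ) ^ (n + 1)) • ((∑ j ∈ Finset.range ℓ, E N n f ∣[(-(n : ℤ))] ModularForm.heckeMatrix ℓ j)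
        + E N n f ∣[(-(n : ℤ))] ModularForm.heckeDiagMatrix ℓ) := by
  have : NeZero ℓ := ⟨hℓ.ne_zero⟩
  rw [E_heckeT_onePoint N n hℓ hℓN f, ← heckeT_eq_sum_onePoint, ModularForm.heckeT_def]

theorem E_heckeU_zmod {q : ℕ} [NeZero q] (hqN : q ∣ N)
    (f : CuspForm (CongruenceSubgroup.Gamma0 N) ((n : ℤ) + 2)) :
    E N n (CuspForm.heckeULin ((n : ℤ) + 2) hqN f) =
      ((q : ℂ) ^ (n + 1)) • ∑ x : ZMod q, E N n f ∣[(-(n : ℤ))] ModularForm.heckeMatrix q x.val := by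
  have hq0 : q ≠ 0 := NeZero.ne q
  refine E_hecke_general N n Finset.univ (fun x : ZMod q => ModularForm.heckeMatrix q x.val) q
    (Nat.pos_of_ne_zero hq0) (fun x _ => ?_) (fun x _ => heckeMatrix_val_det hq0 x.val) f _ ?_
  · have := heckeMatrix_val_eq hq0 x.val 1 0
    simpa using this
  · rw [CuspForm.coe_heckeULin_apply, heckeU_eq_sum_zmod]

theorem E_heckeU {q : ℕ} (hqN : q ∣ N)
    (f : CuspForm (CongruenceSubgroup.Gamma0 N) ((n : ℤ) + 2)) :
    E N n (CuspForm.heckeULin ((n : ℤ) + 2) hqN f) =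
      ((q : ℂ) ^ (n + 1)) • (∑ j ∈ Finset.range q, E N n f ∣[(-(n : ℤ))] ModularForm.heckeMatrix q j) := by
  have hq0 : q ≠ 0 := fun h => NeZero.ne N (Nat.eq_zero_of_zero_dvd (h ▸ hqN))
  have : NeZero q := ⟨hq0⟩
  rw [E_heckeU_zmod N n hqN f, ← heckeU_eq_sum_zmod, ModularForm.heckeU_def]

/-- Composition with a fixed operator preserves the period lattice as soon as it does so on the
generators. -/
theorem periodLattice_comp_of_generators
    (T : CuspForm (CongruenceSubgroup.Gamma0 N) ((n : ℤ) + 2) →ₗ[ℂ]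
      CuspForm (CongruenceSubgroup.Gamma0 N) ((n : ℤ) + 2))
    (hT : ∀ (γ : CongruenceSubgroup.Gamma0 N) (j : ℕ), periodCoeff N n γ j ∘ₗ T ∈ periodLattice N n)
    (φ : Module.Dual ℂ (CuspForm (CongruenceSubgroup.Gamma0 N) ((n : ℤ) + 2)))
    (hφ : φ ∈ periodLattice N n) :
    φ ∘ₗ T ∈ periodLattice N n := by
  unfold periodLattice at hφ
  induction hφ using Submodule.span_induction with
  | mem x hx =>
    obtain ⟨⟨γ, j⟩, rfl⟩ := hx
    exact hT γ j
  | zero => rw [LinearMap.zero_comp]; exact Submodule.zero_mem _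
  | add x y _ _ hx hy => rw [LinearMap.add_comp]; exact Submodule.add_mem _ hx hy
  | smul a x _ hx =>
    have : (a • x) ∘ₗ T = a • (x ∘ₗ T) := by
      ext f; simp
    rw [this]; exact Submodule.smul_mem _ a hx

theorem periodLattice_heckeT {ℓ : ℕ} (hℓ : ℓ.Prime) (hℓN : ¬ ℓ ∣ N)
    (φ : Module.Dual ℂ (CuspForm (CongruenceSubgroup.Gamma0 N) ((n : ℤ) + 2)))
    (hφ : φ ∈ periodLattice N n) :
    φ ∘ₗ CuspForm.heckeTLin ((n : ℤ) + 2) hℓ hℓN ∈ periodLattice N n := by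
  have : Fact ℓ.Prime := ⟨hℓ⟩
  refine periodLattice_comp_of_generators N n _ (fun γ j => ?_) φ hφ
  have hγN : (N : ℤ) ∣ (γ : SL(2, ℤ)) 1 0 :=
    (ZMod.intCast_zmod_eq_zero_iff_dvd _ _).mp (CongruenceSubgroup.Gamma0_mem.mp γ.2)
  choose g' hg'N hg'mul using fun x => heckeRep_mul hℓN (γ : SL(2, ℤ)) hγN x
  have hg'mem : ∀ x, g' x ∈ CongruenceSubgroup.Gamma0 N := fun x =>
    CongruenceSubgroup.Gamma0_mem.mpr ((ZMod.intCast_zmod_eq_zero_iff_dvd _ _).mpr (hg'N x))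
  exact periodCoeff_comp_mem_general N n (heckeRep ℓ) (heckeRepInt ℓ) ℓ hℓ.pos
    (fun x a b => heckeRep_val_eq hℓ.ne_zero x a b) (fun x => heckeRep_val_det hℓ.ne_zero x)
    _ (E_heckeT_onePoint N n hℓ hℓN) (MulAction.toPerm (redMatrix ℓ (γ : SL(2, ℤ)))) γ
    (fun x => ⟨g' x, hg'mem x⟩) (fun x => hg'mul x) j

theorem periodLattice_heckeU {q : ℕ} (hqN : q ∣ N)
    (φ : Module.Dual ℂ (CuspForm (CongruenceSubgroup.Gamma0 N) ((n : ℤ) + 2)))
    (hφ : φ ∈ periodLattice N n) :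
    φ ∘ₗ CuspForm.heckeULin ((n : ℤ) + 2) hqN ∈ periodLattice N n := by
  have hq0 : q ≠ 0 := fun h => NeZero.ne N (Nat.eq_zero_of_zero_dvd (h ▸ hqN))
  have : NeZero q := ⟨hq0⟩
  refine periodLattice_comp_of_generators N n _ (fun γ j => ?_) φ hφ
  have hγN : (N : ℤ) ∣ (γ : SL(2, ℤ)) 1 0 :=
    (ZMod.intCast_zmod_eq_zero_iff_dvd _ _).mp (CongruenceSubgroup.Gamma0_mem.mp γ.2)
  have hc : (q : ℤ) ∣ (γ : SL(2, ℤ)) 1 0 := (Int.natCast_dvd_natCast.mpr hqN).trans hγN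
  choose g' hg'c hg'mul using fun x => heckeMatrix_mul_of_dvd (γ : SL(2, ℤ)) hc x
  have hg'mem : ∀ x, g' x ∈ CongruenceSubgroup.Gamma0 N := fun x => by
    rw [CongruenceSubgroup.Gamma0_mem, hg'c x]
    push_cast
    rw [CongruenceSubgroup.Gamma0_mem.mp γ.2, mul_zero]
  exact periodCoeff_comp_mem_general N n (fun x : ZMod q => ModularForm.heckeMatrix q x.val)
    (fun x : ZMod q => !![1, (x.val : ℤ); 0, (q : ℤ)]) q (Nat.pos_of_ne_zero hq0)
    (fun x a b => heckeMatrix_val_eq hq0 x.val a b) (fun x => heckeMatrix_val_det hq0 x.val)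
    _ (E_heckeU_zmod N n hqN)
    (affinePerm (γ : SL(2, ℤ)) ((ZMod.intCast_zmod_eq_zero_iff_dvd _ _).mpr hc)) γ
    (fun x => ⟨g' x, hg'mem x⟩) (fun x => hg'mul x) j

end Fermat.Agent.S22
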