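import Fermat.Agent.S22.Cocycle

/-!
# S22 — the period lattice separates the points of `S_{n+2}(Γ₀(N))`

If all period polynomials of `f` vanish then `F = E f` is invariant of weight `-n` under `Γ₀(N)`.
For `γ ∈ SL(2, ℤ)`, `F ∣[-n] γ` differs from the Eichler integral of `f ∣[n+2] γ` by a polynomial
(`bol`), which is `N`-periodic hence constant; so `F` is bounded at all cusps, i.e. a modular form of
weight `-n ≤ 0`.  Then `F` is constant (`ModularForm.eq_const_of_weight_zero`) or zero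
(`ModularForm.isZero_of_neg_weight`), so `f = D^(n+1) F = 0`.
-/

set_option autoImplicit false

namespace Fermat.Agent.S22

open UpperHalfPlane hiding I
open Complex
open scoped Manifold MatrixGroups ModularForm Topology
open Derivative

variable (N : ℕ) [NeZero N] (n : ℕ)

omit [NeZero N] in
theorem conj_T_pow_mem_Gamma0 (γ : SL(2, ℤ)) :
    γ * ModularGroup.T ^ (N : ℤ) * γ⁻¹ ∈ CongruenceSubgroup.Gamma0 N := by
  have h1 : ModularGroup.T ^ (N : ℤ) ∈ CongruenceSubgroup.Gamma N := by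
    simpa using CongruenceSubgroup.ModularGroup_T_pow_mem_Gamma (N : ℤ) (N : ℤ) dvd_rfl
  have h2 := (CongruenceSubgroup.Gamma_normal N).conj_mem _ h1 γ
  rw [CongruenceSubgroup.Gamma_mem] at h2
  exact CongruenceSubgroup.Gamma0_mem.mpr h2.2.2.1

theorem SL_slash_T_zpow_apply (w : ℤ) (G : ℍ → ℂ) (m : ℤ) (z : ℍ) :
    (G ∣[w] (ModularGroup.T ^ m)) z = G ((m : ℝ) +ᵥ z) := by
  rw [ModularForm.SL_slash_apply, UpperHalfPlane.modular_T_zpow_smul]
  have hden : denom ((ModularGroup.T ^ m : SL(2, ℤ)) : GL (Fin 2) ℝ) z = 1 := by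
    simp [denom, ModularGroup.coe_T_zpow, -map_zpow]
  rw [hden, one_zpow, mul_one]

/-- A function invariant under `Γ₀(N)` (weight `w`) has all its `SL(2, ℤ)`-translates
`N`-periodic (since `γ T^N γ⁻¹ ∈ Γ(N) ≤ Γ₀(N)`). -/
theorem slash_periodic_of_invariant {w : ℤ} {F : ℍ → ℂ}
    (hF : ∀ γ ∈ CongruenceSubgroup.Gamma0 N, F ∣[w] γ = F) (γ : SL(2, ℤ)) (z : ℍ) :
    (F ∣[w] γ) ((N : ℝ) +ᵥ z) = (F ∣[w] γ) z := by
  have h1 : (F ∣[w] γ) ∣[w] (ModularGroup.T ^ (N : ℤ)) = F ∣[w] γ := by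
    rw [← SlashAction.slash_mul]
    have h2 : γ * ModularGroup.T ^ (N : ℤ) = (γ * ModularGroup.T ^ (N : ℤ) * γ⁻¹) * γ := by
      group
    rw [h2, SlashAction.slash_mul, hF _ (conj_T_pow_mem_Gamma0 N γ)]
  have h3 := congrFun h1 z
  rw [SL_slash_T_zpow_apply] at h3
  simpa using h3

theorem isBoundedAtImInfty_slash_E
    (f : CuspForm (CongruenceSubgroup.Gamma0 N) ((n : ℤ) + 2))
    (hf : ∀ γ ∈ CongruenceSubgroup.Gamma0 N, E N n f ∣[(-(n : ℤ))] γ = E N n f) (γ : SL(2, ℤ)) :
    IsBoundedAtImInfty (E N n f ∣[(-(n : ℤ))] γ) := by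
  obtain ⟨hE_md, hE_zero, hE_D⟩ := E_spec N n f
  obtain ⟨H, hH_md, hH_per, hH_zero, hH_D⟩ := exists_eichler_cuspForm_slash N (n + 1) f γ
  have hdet : (γ : GL (Fin 2) ℝ).val.det = 1 := by
    rw [← Matrix.GeneralLinearGroup.val_det_apply]; simp
  have hG_md : MDiff (E N n f ∣[(-(n : ℤ))] γ) := by
    rw [ModularForm.SL_slash]
    exact hE_md.slash _ _
  have hbol : iterD (n + 1) (E N n f ∣[(-(n : ℤ))] γ) = (⇑f ∣[((n : ℤ) + 2)] γ) := by
    have h := bol n hE_md (g := (γ : GL (Fin 2) ℝ)) (by rw [hdet]; exact one_pos)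
    rw [ModularForm.SL_slash, h, hdet, hE_D]
    simp [ModularForm.SL_slash]
  have hzero : iterD (n + 1) (E N n f ∣[(-(n : ℤ))] γ - H) = 0 := by
    rw [iterD_sub (n + 1) hG_md hH_md, hbol, hH_D, sub_self]
  obtain ⟨P, -, hP⟩ := exists_poly_of_iterD_eq_zero (n + 1) (hG_md.sub hH_md) hzero
  have hPper : ∀ z : ℍ, P.eval (((N : ℝ) +ᵥ z : ℍ) : ℂ) = P.eval (z : ℂ) := by
    intro z
    rw [← hP, ← hP]
    simp only [Pi.sub_apply]
    rw [slash_periodic_of_invariant N hf γ z, hH_per z]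
  obtain ⟨c, rfl⟩ := poly_const_of_periodic P (h := (N : ℝ))
    (by exact_mod_cast Nat.pos_of_ne_zero (NeZero.ne N)) hPper
  have hG : E N n f ∣[(-(n : ℤ))] γ = H + Function.const ℍ c := by
    funext z
    have := hP z
    simp only [Pi.sub_apply, Polynomial.eval_C] at this
    simp only [Pi.add_apply, Function.const_apply]
    rw [← this]; ring
  rw [hG]
  exact hH_zero.isBoundedAtImInfty.add (Filter.const_boundedAtFilter _ c)

theorem eq_zero_of_E_invariant
    (f : CuspForm (CongruenceSubgroup.Gamma0 N) ((n : ℤ) + 2))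
    (hf : ∀ γ ∈ CongruenceSubgroup.Gamma0 N, E N n f ∣[(-(n : ℤ))] γ = E N n f) : f = 0 := by
  obtain ⟨hE_md, hE_zero, hE_D⟩ := E_spec N n f
  have hbdd : ∀ {c : OnePoint ℝ},
      IsCusp c (CongruenceSubgroup.Gamma0 N : Subgroup (GL (Fin 2) ℝ)) →
      c.IsBoundedAt (E N n f) (-(n : ℤ)) := by
    intro c hc
    rw [Subgroup.IsArithmetic.isCusp_iff_isCusp_SL2Z] at hc
    rw [OnePoint.isBoundedAt_iff_forall_SL2Z hc]
    intro γ _
    exact isBoundedAtImInfty_slash_E N n f hf γ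
  have hinv : ∀ γ ∈ (CongruenceSubgroup.Gamma0 N : Subgroup (GL (Fin 2) ℝ)),
      E N n f ∣[(-(n : ℤ))] γ = E N n f := by
    rintro γ ⟨g, hg, rfl⟩
    exact hf g hg
  have hE0 : iterD (n + 1) (E N n f) = 0 := by
    rcases Nat.eq_zero_or_pos n with rfl | hn
    · simp only [Nat.cast_zero, neg_zero] at hinv hbdd
      let Fm : ModularForm (CongruenceSubgroup.Gamma0 N : Subgroup (GL (Fin 2) ℝ)) 0 :=
        { toFun := E N 0 f
          slash_action_eq' := hinv
          holo' := hE_md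
          bdd_at_cusps' := fun hc => hbdd hc }
      obtain ⟨c, hc⟩ := ModularForm.eq_const_of_weight_zero Fm
      have hc' : E N 0 f = Function.const ℍ c := hc
      rw [hc']
      show Derivative.normalizedDerivOfComplex (fun _ : ℍ => c) = 0
      exact Derivative.normalizedDerivOfComplex_const c
    · let Fm : ModularForm (CongruenceSubgroup.Gamma0 N : Subgroup (GL (Fin 2) ℝ)) (-(n : ℤ)) :=
        { toFun := E N n f
          slash_action_eq' := hinv
          holo' := hE_md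
          bdd_at_cusps' := fun hc => hbdd hc }
      have hFm : Fm = 0 := ModularForm.isZero_of_neg_weight (by omega) Fm
      have hc' : E N n f = 0 := by
        have := congrArg (fun F : ModularForm _ _ => (F : ℍ → ℂ)) hFm
        exact this
      rw [hc']
      exact iterD_zero_fun (n + 1)
  apply DFunLike.coe_injective
  rw [← hE_D, hE0]
  rfl

theorem periodLattice_separates
    (f : CuspForm (CongruenceSubgroup.Gamma0 N) ((n : ℤ) + 2))
    (h : ∀ φ ∈ periodLattice N n, φ f = 0) : f = 0 := by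
  apply eq_zero_of_E_invariant N n f
  intro γ hγ
  obtain ⟨hdeg, hz⟩ := periodPoly_spec N n f hγ
  have hP : periodPoly N n f γ = 0 := by
    ext j
    rcases le_or_gt j n with hj | hj
    · have := h _ (periodCoeff_mem N n ⟨γ, hγ⟩ j hj)
      simpa using this
    · rw [Polynomial.coeff_zero]
      exact Polynomial.coeff_eq_zero_of_natDegree_lt (lt_of_le_of_lt hdeg hj)
  funext z
  have := hz z
  rw [hP, Polynomial.eval_zero, sub_eq_zero] at this
  exact this

end Fermat.Agent.S22
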