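import Mathlib
import Fermat.Prelude.Def_CuspForm_HeckeAlgebra
import Fermat.Prelude.Thm_ModularForm_sturm_bound_Gamma0
import Fermat.Prelude.Thm_CongruenceSubgroup_one_mem_strictPeriods_Gamma0

/-!
# S22 — weights `k ≤ 1`: the space of cusp forms is zero
-/

set_option autoImplicit false

namespace Fermat.Agent.S22

open scoped MatrixGroups ModularForm

/-- `k ≤ 0`: Sturm bound (`ModularForm.sturm_bound_Gamma0`, only `a_0 = 0` is needed);
`k = 1`: odd weight and `-1 ∈ Γ₀(N)`. -/
theorem cuspForm_eq_zero_of_le_one (N : ℕ) [NeZero N] {k : ℤ} (hk : k ≤ 1)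
    (f : CuspForm (CongruenceSubgroup.Gamma0 N) k) : f = 0 := by
  have hmf : (ModularFormClass.modularForm f : ModularForm (CongruenceSubgroup.Gamma0 N) k) = 0 := by
    rcases lt_or_eq_of_le hk with hk0 | hk1
    · refine ModularForm.sturm_bound_Gamma0 N _ fun n hn => ?_
      have h0 : (k * (CongruenceSubgroup.Gamma0 N).index).toNat = 0 := by
        apply Int.toNat_eq_zero.mpr
        have : (0 : ℤ) ≤ ((CongruenceSubgroup.Gamma0 N).index : ℤ) := Int.natCast_nonneg _
        nlinarith
      rw [h0, Nat.zero_div] at hn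
      have hn0 : n = 0 := Nat.le_zero.mp hn
      subst hn0
      exact CuspFormClass.qExpansion_coeff_zero f one_pos
        (CongruenceSubgroup.one_mem_strictPeriods_Gamma0 N)
    · subst hk1
      apply ModularForm.eq_zero_of_neg_one_mem _ (by decide)
      refine ⟨-1, ?_, ?_⟩
      · show (-1 : SL(2, ℤ)) ∈ CongruenceSubgroup.Gamma0 N
        rw [CongruenceSubgroup.Gamma0_mem]
        simp
      · ext i j
        simp
  have hcoe : (⇑f : UpperHalfPlane → ℂ) = 0 := by
    have := congrArg (fun F : ModularForm (CongruenceSubgroup.Gamma0 N) k =>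
      (⇑F : UpperHalfPlane → ℂ)) hmf
    simpa using this
  exact DFunLike.coe_injective (hcoe.trans (FunLike.coe_zero (F := CuspForm (CongruenceSubgroup.Gamma0 N) k)).symm)

theorem finite_heckeAlgebra_of_le_one (N : ℕ) [NeZero N] {k : ℤ} (hk : k ≤ 1) (S : Set ℕ) :
    Module.Finite ℤ (CuspForm.heckeAlgebra N k S) := by
  have hsub : Subsingleton (CuspForm.heckeAlgebra N k S) := by
    refine ⟨fun a b => Subtype.ext ?_⟩
    ext f
    rw [cuspForm_eq_zero_of_le_one N hk (a.1 f), cuspForm_eq_zero_of_le_one N hk (b.1 f)]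
  exact Module.Finite.of_finite

end Fermat.Agent.S22
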