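import Fermat.Agent.S22.Basic

/-!
# S22 — analysis on the upper half plane (no modular forms)

* `exists_primitive`      : periodic holomorphic `f → 0` at `i∞` has a primitive with the same properties
* `exists_iterPrimitive`  : iterated version
* `exists_poly_of_iterD_eq_zero` : `D^m H = 0` ⇒ `H` is a polynomial of degree `< m`
* `eq_of_iterD_eq`        : uniqueness of iterated primitives vanishing at `i∞`
* `bol`                   : Bol's identity
-/

set_option autoImplicit false

namespace Fermat.Agent.S22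

open UpperHalfPlane hiding I
open Complex
open scoped Manifold MatrixGroups ModularForm Topology
open Derivative

/-! ### linearity of `iterD` -/

theorem iterD_mdiff (m : ℕ) {F : ℍ → ℂ} (hF : MDiff F) : MDiff (iterD m F) := by
  induction m with
  | zero => exact hF
  | succ m ih =>
    rw [iterD_succ']
    exact Derivative.normalizedDerivOfComplex_mdifferentiable ih

theorem iterD_add (m : ℕ) {F G : ℍ → ℂ} (hF : MDiff F) (hG : MDiff G) :
    iterD m (F + G) = iterD m F + iterD m G := by
  induction m generalizing F G with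
  | zero => rfl
  | succ m ih =>
    rw [iterD_succ, iterD_succ, iterD_succ, Derivative.normalizedDerivOfComplex_add F G hF hG]
    exact ih (Derivative.normalizedDerivOfComplex_mdifferentiable hF)
      (Derivative.normalizedDerivOfComplex_mdifferentiable hG)

theorem iterD_smul (m : ℕ) (c : ℂ) {F : ℍ → ℂ} (hF : MDiff F) :
    iterD m (c • F) = c • iterD m F := by
  induction m generalizing F with
  | zero => rfl
  | succ m ih =>
    rw [iterD_succ, iterD_succ, Derivative.normalizedDerivOfComplex_smul c F hF]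
    exact ih (Derivative.normalizedDerivOfComplex_mdifferentiable hF)

theorem mdiff_const_smul (c : ℂ) {F : ℍ → ℂ} (hF : MDiff F) : MDiff (c • F) := by
  have : MDiff (fun z : ℍ => c * F z) := MDifferentiable.mul mdifferentiable_const hF
  exact this

theorem iterD_sub (m : ℕ) {F G : ℍ → ℂ} (hF : MDiff F) (hG : MDiff G) :
    iterD m (F - G) = iterD m F - iterD m G := by
  have hG' : MDiff ((-1 : ℂ) • G) := mdiff_const_smul _ hG
  have e : F - G = F + (-1 : ℂ) • G := by
    funext z; simp [sub_eq_add_neg]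
  rw [e, iterD_add m hF hG', iterD_smul m _ hG]
  funext z; simp [sub_eq_add_neg]

theorem iterD_zero_fun (m : ℕ) : iterD m (0 : ℍ → ℂ) = 0 := by
  have h := iterD_smul m (0 : ℂ) (F := (0 : ℍ → ℂ)) mdifferentiable_const
  simpa using h

theorem mdiff_finset_sum {ι : Type*} (s : Finset ι) {F : ι → ℍ → ℂ}
    (hF : ∀ i ∈ s, MDiff (F i)) : MDiff (∑ i ∈ s, F i) := by
  classical
  induction s using Finset.induction_on with
  | empty =>
    rw [Finset.sum_empty]
    exact (mdifferentiable_const : MDiff (fun _ : ℍ => (0 : ℂ)))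
  | insert b t hb iht =>
    rw [Finset.sum_insert hb]
    exact (hF b (Finset.mem_insert_self b t)).add
      (iht fun i hi => hF i (Finset.mem_insert_of_mem hi))

theorem iterD_sum {ι : Type*} (s : Finset ι) (m : ℕ) {F : ι → ℍ → ℂ} (hF : ∀ i ∈ s, MDiff (F i)) :
    iterD m (∑ i ∈ s, F i) = ∑ i ∈ s, iterD m (F i) := by
  classical
  induction s using Finset.induction_on with
  | empty => simpa using iterD_zero_fun m
  | insert a s ha ih =>
    rw [Finset.sum_insert ha, Finset.sum_insert ha]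
    have h1 : MDiff (F a) := hF a (Finset.mem_insert_self a s)
    have h2 : MDiff (∑ i ∈ s, F i) :=
      mdiff_finset_sum s fun i hi => hF i (Finset.mem_insert_of_mem hi)
    rw [iterD_add m h1 h2, ih fun i hi => hF i (Finset.mem_insert_of_mem hi)]

/-! ### primitives -/

local notation "𝕢" => Function.Periodic.qParam

theorem qParam_add_period (h : ℝ) (hh : h ≠ 0) (z : ℂ) : 𝕢 h (z + h) = 𝕢 h z := by
  have hh' : (h : ℂ) ≠ 0 := by exact_mod_cast hh
  simp only [Function.Periodic.qParam]
  rw [show 2 * (Real.pi : ℂ) * I * (z + h) / h = 2 * Real.pi * I * z / h + 2 * Real.pi * I by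
    field_simp]
  rw [Complex.exp_add, Complex.exp_two_pi_mul_I, mul_one]

theorem hasDerivAt_qParam (h : ℝ) (z : ℂ) :
    HasDerivAt (𝕢 h) (2 * Real.pi * I / h * 𝕢 h z) z := by
  have h1 : HasDerivAt (fun z : ℂ => 2 * (Real.pi : ℂ) * I * z / h) (2 * Real.pi * I / h) z := by
    have := ((hasDerivAt_id z).const_mul (2 * (Real.pi : ℂ) * I)).div_const (h : ℂ)
    simpa using this
  have h2 := h1.cexp
  show HasDerivAt (fun z : ℂ => cexp (2 * (Real.pi : ℂ) * I * z / h))
    (2 * Real.pi * I / h * cexp (2 * (Real.pi : ℂ) * I * z / h)) z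
  exact h2.congr_deriv (by ring)

theorem periodic_comp_ofComplex_of_vadd {f : ℍ → ℂ} {h : ℝ}
    (hper : ∀ z : ℍ, f (h +ᵥ z) = f z) : Function.Periodic (f ∘ ofComplex) h := by
  intro w
  by_cases hw : 0 < im w
  · have hw' : 0 < im (w + h) := by simpa using hw
    simp only [Function.comp, ofComplex_apply_of_im_pos hw', ofComplex_apply_of_im_pos hw]
    rw [← hper ⟨w, hw⟩]
    congr 1
    ext
    simp [add_comm]
  · have hw0 : im w ≤ 0 := not_lt.mp hw
    have hw' : im (w + h) ≤ 0 := by simpa using hw0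
    simp [Function.comp, ofComplex_apply_of_im_nonpos hw', ofComplex_apply_of_im_nonpos hw0]

theorem vadd_of_periodic_comp_ofComplex {f : ℍ → ℂ} {h : ℝ}
    (hper : Function.Periodic (f ∘ ofComplex) h) (z : ℍ) : f (h +ᵥ z) = f z := by
  have := hper (z : ℂ)
  simp only [Function.comp, ofComplex_apply] at this
  rw [← this]
  congr 1
  have him : 0 < ((z : ℂ) + h).im := by simpa using z.im_pos
  rw [ofComplex_apply_of_im_pos him]
  ext
  simp [add_comm]

/-- A holomorphic `h`-periodic function on `ℍ` tending to `0` at `i∞` has a primitive (for `D`)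
with the same three properties. -/
theorem exists_primitive {f : ℍ → ℂ} (hf : MDiff f) {h : ℝ} (hh : 0 < h)
    (hper : ∀ z : ℍ, f (h +ᵥ z) = f z) (h0 : IsZeroAtImInfty f) :
    ∃ F : ℍ → ℂ, MDiff F ∧ (∀ z : ℍ, F (h +ᵥ z) = F z) ∧ IsZeroAtImInfty F ∧ D F = f := by
  have hper' : Function.Periodic (f ∘ ofComplex) h := periodic_comp_ofComplex_of_vadd hper
  set g := cuspFunction h f with hg
  have hgd : DifferentiableOn ℂ g (Metric.ball 0 1) :=
    differentiableOn_cuspFunction_ball hh hper' hf h0.isBoundedAtImInfty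
  have hg0 : g 0 = 0 := by
    rw [hg, cuspFunction_apply_zero hh
      (analyticAt_cuspFunction_zero hh hper' hf h0.isBoundedAtImInfty) hper']
    exact h0.valueAtInfty_eq_zero
  have hφd : DifferentiableOn ℂ (dslope g 0) (Metric.ball 0 1) :=
    (differentiableOn_dslope (Metric.ball_mem_nhds 0 one_pos)).mpr hgd
  obtain ⟨ψ, hψ0, hψ⟩ := (hφd.isExactOn_ball).with_val_at 0 0
  have hqball : ∀ z : ℂ, 0 < z.im → 𝕢 h z ∈ Metric.ball (0 : ℂ) 1 := fun z hz => by
    simpa using Function.Periodic.norm_qParam_lt_one hh hz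
  set Fc : ℂ → ℂ := fun z => h * ψ (𝕢 h z) with hFc
  have hFcderiv : ∀ z : ℂ, 0 < z.im →
      HasDerivAt Fc (2 * Real.pi * I * f (ofComplex z)) z := by
    intro z hz
    have h1 := (hψ _ (hqball z hz)).comp z (hasDerivAt_qParam h z)
    have h2 := h1.const_mul (h : ℂ)
    have hq0 : 𝕢 h z ≠ 0 := Function.Periodic.qParam_ne_zero z
    have hval : dslope g 0 (𝕢 h z) * (2 * Real.pi * I / h * 𝕢 h z) * h =
        2 * Real.pi * I * f (ofComplex z) := by
      rw [dslope_of_ne _ hq0, slope_def_field, hg0, sub_zero, sub_zero]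
      have hh' : (h : ℂ) ≠ 0 := by exact_mod_cast hh.ne'
      have : g (𝕢 h z) = f (ofComplex z) := by
        have := eq_cuspFunction (f := f) (ofComplex z) hh.ne' hper'
        rw [ofComplex_apply_of_im_pos hz] at this ⊢
        simpa using this
      rw [this]
      field_simp
    have : HasDerivAt Fc (h * (dslope g 0 (𝕢 h z) * (2 * Real.pi * I / h * 𝕢 h z))) z := h2
    convert this using 1
    rw [← hval]; ring
  have hFper : Function.Periodic ((fun τ : ℍ => Fc τ) ∘ ofComplex) h := by
    intro w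
    by_cases hw : 0 < im w
    · have hw' : 0 < im (w + h) := by simpa using hw
      simp only [Function.comp, ofComplex_apply_of_im_pos hw', ofComplex_apply_of_im_pos hw, hFc]
      simp [qParam_add_period h hh.ne']
    · have hw0 : im w ≤ 0 := not_lt.mp hw
      have hw' : im (w + h) ≤ 0 := by simpa using hw0
      simp [Function.comp, ofComplex_apply_of_im_nonpos hw', ofComplex_apply_of_im_nonpos hw0]
  refine ⟨fun τ => Fc τ, ?_, fun z => vadd_of_periodic_comp_ofComplex hFper z, ?_, ?_⟩
  · rw [UpperHalfPlane.mdifferentiable_iff]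
    intro z hz
    have hz' : 0 < z.im := hz
    refine ((hFcderiv z hz').differentiableAt.differentiableWithinAt).congr ?_ ?_
    · intro w hw
      simp [Function.comp, ofComplex_apply_of_im_pos (show 0 < w.im from hw)]
    · simp [Function.comp, ofComplex_apply_of_im_pos hz']
  · have hc : ContinuousAt ψ 0 := (hψ 0 (Metric.mem_ball_self one_pos)).continuousAt
    have h1 : Filter.Tendsto (fun τ : ℍ => ψ (𝕢 h τ)) atImInfty (𝓝 (ψ 0)) :=
      hc.tendsto.comp (qParam_tendsto_atImInfty hh)
    have h2 := h1.const_mul (h : ℂ)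
    rw [hψ0, mul_zero] at h2
    exact h2
  · funext τ
    simp only [Derivative.normalizedDerivOfComplex]
    have hτ : 0 < (τ : ℂ).im := τ.im_pos
    have hev : ((fun τ : ℍ => Fc τ) ∘ ofComplex) =ᶠ[𝓝 (τ : ℂ)] Fc := by
      filter_upwards [isOpen_upperHalfPlaneSet.mem_nhds hτ] with w hw
      simp [Function.comp, ofComplex_apply_of_im_pos (show 0 < w.im from hw)]
    rw [hev.deriv_eq, (hFcderiv τ hτ).deriv, ofComplex_apply]
    have : (2 * (Real.pi : ℂ) * I) ≠ 0 := two_pi_I_ne_zero
    field_simp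

theorem exists_iterPrimitive (m : ℕ) {f : ℍ → ℂ} (hf : MDiff f) {h : ℝ} (hh : 0 < h)
    (hper : ∀ z : ℍ, f (h +ᵥ z) = f z) (h0 : IsZeroAtImInfty f) :
    ∃ F : ℍ → ℂ, MDiff F ∧ (∀ z : ℍ, F (h +ᵥ z) = F z) ∧ IsZeroAtImInfty F ∧ iterD m F = f := by
  induction m with
  | zero => exact ⟨f, hf, hper, h0, rfl⟩
  | succ m ih =>
    obtain ⟨F₁, hF₁, hper₁, h0₁, hD₁⟩ := ih
    obtain ⟨F, hF, hperF, h0F, hDF⟩ := exists_primitive hF₁ hh hper₁ h0₁
    exact ⟨F, hF, hperF, h0F, by rw [iterD_succ, hDF, hD₁]⟩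

/-! ### functions killed by `D^m` are polynomials -/

open Polynomial in
/-- Formal antiderivative of a polynomial, with degree control. -/
theorem exists_poly_antideriv (p : ℂ[X]) (m : ℕ) (hp : p.degree < m) :
    ∃ q : ℂ[X], derivative q = p ∧ q.degree < (m + 1 : ℕ) := by
  refine ⟨∑ i ∈ p.support, monomial (i + 1) (p.coeff i / (i + 1)), ?_, ?_⟩
  · rw [derivative_sum]
    conv_rhs => rw [p.as_sum_support]
    refine Finset.sum_congr rfl fun i _ => ?_
    rw [derivative_monomial_succ]
    congr 1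
    have : ((i : ℂ) + 1) ≠ 0 := by exact_mod_cast Nat.succ_ne_zero i
    field_simp
  · refine lt_of_le_of_lt (degree_sum_le _ _) ?_
    rw [Finset.sup_lt_iff (by exact_mod_cast WithBot.bot_lt_coe (m + 1))]
    intro i hi
    refine lt_of_le_of_lt (degree_monomial_le _ _) ?_
    have hi' : (i : WithBot ℕ) < m := lt_of_le_of_lt (le_degree_of_mem_supp i hi) hp
    have : i < m := by exact_mod_cast hi'
    exact_mod_cast Nat.succ_lt_succ this

open Polynomial in
theorem exists_poly_of_iterD_eq_zero (m : ℕ) {H : ℍ → ℂ} (hH : MDiff H) (h : iterD m H = 0) :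
    ∃ P : Polynomial ℂ, P.degree < m ∧ ∀ z : ℍ, H z = P.eval (z : ℂ) := by
  induction m generalizing H with
  | zero =>
    refine ⟨0, by simp, fun τ => ?_⟩
    have : H = 0 := h
    simp [this]
  | succ m ih =>
    obtain ⟨p, hp, hpe⟩ := ih (Derivative.normalizedDerivOfComplex_mdifferentiable hH)
      (by rw [← iterD_succ]; exact h)
    obtain ⟨q, hq, hqd⟩ := exists_poly_antideriv (C (2 * Real.pi * I) * p) m
      (by rw [degree_C_mul two_pi_I_ne_zero]; exact hp)
    have hFd : DifferentiableOn ℂ (H ∘ ofComplex) upperHalfPlaneSet :=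
      UpperHalfPlane.mdifferentiable_iff.mp hH
    set u : ℂ → ℂ := fun z => (H ∘ ofComplex) z - q.eval z with hu
    have hud : DifferentiableOn ℂ u upperHalfPlaneSet :=
      hFd.sub (q.differentiable.differentiableOn)
    have hu' : upperHalfPlaneSet.EqOn (deriv u) 0 := by
      intro z hz
      have hz' : 0 < z.im := hz
      have h1 : DifferentiableAt ℂ (H ∘ ofComplex) z :=
        (hFd z hz).differentiableAt (isOpen_upperHalfPlaneSet.mem_nhds hz)
      have h2 : deriv (H ∘ ofComplex) z = 2 * Real.pi * I * p.eval z := by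
        have := hpe ⟨z, hz'⟩
        simp only [Derivative.normalizedDerivOfComplex] at this
        have h2pi : (2 * (Real.pi : ℂ) * I) ≠ 0 := two_pi_I_ne_zero
        rw [← this]
        field_simp
      have h3 : deriv (fun z => q.eval z) z = 2 * Real.pi * I * p.eval z := by
        rw [Polynomial.deriv, hq]
        simp
      simp only [Pi.zero_apply, hu]
      rw [deriv_fun_sub h1 q.differentiableAt, h2, h3, sub_self]
    have hconst : ∀ z ∈ upperHalfPlaneSet, u z = u I := fun z hz =>
      isOpen_upperHalfPlaneSet.is_const_of_deriv_eq_zero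
        (Convex.isPreconnected (convex_halfSpace_im_gt 0)) hud hu' hz (by simp)
    refine ⟨q + C (u I), ?_, fun τ => ?_⟩
    · refine lt_of_le_of_lt (degree_add_le _ _) (max_lt hqd ?_)
      exact lt_of_le_of_lt degree_C_le (by exact_mod_cast Nat.succ_pos m)
    · have h5 : u (τ : ℂ) = u I := hconst τ τ.im_pos
      have h6 : u (τ : ℂ) = H τ - q.eval (τ : ℂ) := by
        simp [hu, Function.comp, ofComplex_apply]
      rw [eval_add, eval_C, ← h5, h6]
      ring

/-- A polynomial function tending to zero at `i∞` is zero. -/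
theorem poly_eq_zero_of_isZeroAtImInfty (P : Polynomial ℂ)
    (h : IsZeroAtImInfty (fun z : ℍ => P.eval (z : ℂ))) : P = 0 := by
  have hne : (atImInfty : Filter ℍ).NeBot := by
    rw [atImInfty]
    exact Filter.comap_neBot fun t ht => by
      obtain ⟨a, ha⟩ := Filter.mem_atTop_sets.mp ht
      exact ⟨⟨⟨0, max a 1⟩, by simp⟩, ha _ (le_max_left _ _)⟩
  by_cases hdeg : 0 < P.degree
  · exfalso
    have hnorm : Filter.Tendsto (fun z : ℍ => ‖(z : ℂ)‖) atImInfty Filter.atTop := by
      refine Filter.tendsto_atTop_mono (fun z => ?_) (Filter.tendsto_comap (f := UpperHalfPlane.im))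
      exact (Complex.abs_im_le_norm (z : ℂ)).trans' (le_abs_self _)
    have h1 := Polynomial.tendsto_norm_atTop P hdeg hnorm
    have h2 : Filter.Tendsto (fun z : ℍ => ‖P.eval (z : ℂ)‖) atImInfty (𝓝 0) := by
      simpa using (tendsto_zero_iff_norm_tendsto_zero.mp h)
    exact not_tendsto_nhds_of_tendsto_atTop h1 0 h2
  · have hP : P = Polynomial.C (P.coeff 0) :=
      Polynomial.eq_C_of_degree_le_zero (not_lt.mp hdeg)
    rw [hP] at h ⊢
    simp only [Polynomial.eval_C] at h
    have : (P.coeff 0) = 0 := tendsto_nhds_unique tendsto_const_nhds h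
    rw [this, Polynomial.C_0]

open Polynomial in
/-- A polynomial function on `ℍ` which is `h`-periodic (`h > 0`) is constant. -/
theorem poly_const_of_periodic (P : Polynomial ℂ) {h : ℝ} (hh : 0 < h)
    (hper : ∀ z : ℍ, P.eval ((h +ᵥ z : ℍ) : ℂ) = P.eval (z : ℂ)) : ∃ c : ℂ, P = Polynomial.C c := by
  refine ⟨P.eval I, ?_⟩
  have hI : ∀ n : ℕ, P.eval (I + n * h) = P.eval I := by
    intro n
    induction n with
    | zero => simp
    | succ n ih =>
      have him : 0 < (I + (n : ℂ) * h).im := by simp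
      have := hper ⟨I + n * h, him⟩
      rw [← ih, ← this]
      congr 1
      simp only [UpperHalfPlane.coe_vadd]
      push_cast
      ring
  have hinj : Function.Injective (fun n : ℕ => I + (n : ℂ) * h) := by
    intro a b hab
    have hh' : (h : ℂ) ≠ 0 := by exact_mod_cast hh.ne'
    have : (a : ℂ) * h = b * h := add_left_cancel hab
    have := mul_right_cancel₀ hh' this
    exact_mod_cast this
  have hzero : P - C (P.eval I) = 0 := by
    by_contra hne
    have hfin : ((P - C (P.eval I)).rootSet ℂ).Finite := rootSet_finite _ _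
    have hsub : Set.range (fun n : ℕ => I + (n : ℂ) * h) ⊆ (P - C (P.eval I)).rootSet ℂ := by
      rintro _ ⟨n, rfl⟩
      rw [mem_rootSet]
      refine ⟨hne, ?_⟩
      simp [hI n]
    exact (Set.infinite_range_of_injective hinj) (hfin.subset hsub)
  exact sub_eq_zero.mp hzero

theorem eq_of_iterD_eq (m : ℕ) {F G : ℍ → ℂ} (hF : MDiff F) (hG : MDiff G)
    (hF0 : IsZeroAtImInfty F) (hG0 : IsZeroAtImInfty G) (h : iterD m F = iterD m G) : F = G := by
  have hsub : iterD m (F - G) = 0 := by rw [iterD_sub m hF hG, h, sub_self]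
  obtain ⟨P, -, hP⟩ := exists_poly_of_iterD_eq_zero m (hF.sub hG) hsub
  have hz : IsZeroAtImInfty (fun z : ℍ => P.eval (z : ℂ)) := by
    have h1 : IsZeroAtImInfty (F - G) := by
      have h2 : Filter.Tendsto (fun x => F x - G x) atImInfty (𝓝 (0 - 0)) :=
        Filter.Tendsto.sub hF0 hG0
      rw [sub_zero] at h2
      exact h2
    have e : (fun z : ℍ => P.eval (z : ℂ)) = F - G := by
      funext z; exact (hP z).symm
    rw [e]; exact h1
  have hP0 := poly_eq_zero_of_isZeroAtImInfty P hz
  funext z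
  have := hP z
  rw [hP0] at this
  simpa [sub_eq_zero] using this

/-! ### Bol's identity -/

theorem nD_denom (g : GL (Fin 2) ℝ) :
    D (fun τ : ℍ => denom g τ) = fun _ => (2 * Real.pi * I)⁻¹ * (g 1 0 : ℂ) := by
  funext τ
  simp only [Derivative.normalizedDerivOfComplex]
  have hd : HasDerivAt (fun z : ℂ => denom g z) (g 1 0 : ℂ) (τ : ℂ) := by
    simpa [denom] using ((hasDerivAt_id (τ : ℂ)).const_mul (g 1 0 : ℂ)).add_const (g 1 1 : ℂ)
  have hev : ((fun τ : ℍ => denom g τ) ∘ ofComplex) =ᶠ[𝓝 (τ : ℂ)] fun z : ℂ => denom g z := by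
    filter_upwards [isOpen_upperHalfPlaneSet.mem_nhds τ.im_pos] with w hw
    simp [Function.comp, ofComplex_apply_of_im_pos (show 0 < w.im from hw)]
  rw [hev.deriv_eq, hd.deriv]

theorem iterD_denom_mul (g : GL (Fin 2) ℝ) {G : ℍ → ℂ} (hG : MDiff G) (n : ℕ) :
    iterD (n + 1) ((fun τ : ℍ => denom g τ) * G) =
      (fun τ : ℍ => denom g τ) * iterD (n + 1) G +
        (((n : ℂ) + 1) * ((2 * Real.pi * I)⁻¹ * (g 1 0 : ℂ))) • iterD n G := by
  have hj : MDiff (fun τ : ℍ => denom g τ) := mdifferentiable_denom g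
  induction n with
  | zero =>
    simp only [iterD_succ, iterD_zero]
    rw [Derivative.normalizedDerivOfComplex_mul _ _ hj hG, nD_denom]
    funext z
    simp only [Pi.add_apply, Pi.mul_apply, Pi.smul_apply, smul_eq_mul]
    push_cast
    ring
  | succ n ih =>
    rw [iterD_succ', ih]
    have h1 : MDiff (iterD (n + 1) G) := iterD_mdiff _ hG
    have h2 : MDiff (iterD n G) := iterD_mdiff _ hG
    have h3 : MDiff ((fun τ : ℍ => denom g τ) * iterD (n + 1) G) := hj.mul h1
    have h4 : MDiff ((((n : ℂ) + 1) * ((2 * Real.pi * I)⁻¹ * (g 1 0 : ℂ))) • iterD n G) :=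
      mdiff_const_smul _ h2
    rw [Derivative.normalizedDerivOfComplex_add _ _ h3 h4,
      Derivative.normalizedDerivOfComplex_mul _ _ hj h1,
      Derivative.normalizedDerivOfComplex_smul _ _ h2, nD_denom, ← iterD_succ', ← iterD_succ']
    funext z
    simp only [Pi.add_apply, Pi.mul_apply, Pi.smul_apply, smul_eq_mul]
    push_cast
    ring

theorem slash_pred (k : ℤ) (F : ℍ → ℂ) {g : GL (Fin 2) ℝ} (hg : 0 < g.val.det) :
    F ∣[k - 1] g = ((g.val.det : ℂ))⁻¹ • ((fun τ : ℍ => denom g τ) * (F ∣[k] g)) := by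
  funext τ
  have hdet : g.det.val = g.val.det := Matrix.GeneralLinearGroup.val_det_apply g
  have hdetℂ : (g.val.det : ℂ) ≠ 0 := Complex.ofReal_ne_zero.mpr hg.ne'
  have hz := denom_ne_zero g τ
  simp only [ModularForm.slash_apply, Pi.smul_apply, Pi.mul_apply, smul_eq_mul, hdet,
    abs_of_pos hg]
  rw [show k - 1 - 1 = (k - 1) - 1 by ring, zpow_sub_one₀ hdetℂ,
    show -(k - 1) = -k + 1 by ring, zpow_add_one₀ hz]
  field_simp

/-- Bol's identity, in the form with `m` derivatives and weights `1 - m`, `1 + m`. -/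
theorem bol_aux (m : ℕ) {F : ℍ → ℂ} (hF : MDiff F) {g : GL (Fin 2) ℝ} (hg : 0 < g.val.det) :
    iterD m (F ∣[(1 - m : ℤ)] g) = ((g.val.det : ℂ)⁻¹ ^ m) • ((iterD m F) ∣[(1 + m : ℤ)] g) := by
  induction m generalizing F with
  | zero => simp
  | succ m ih =>
    have hdetℂ : (g.val.det : ℂ) ≠ 0 := Complex.ofReal_ne_zero.mpr hg.ne'
    have hj : MDiff (fun τ : ℍ => denom g τ) := mdifferentiable_denom g
    set G := F ∣[(1 - m : ℤ)] g with hGdef
    have hG : MDiff G := hF.slash _ _
    set H := iterD m F with hHdef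
    have hH : MDiff H := iterD_mdiff m hF
    have hHs : MDiff (H ∣[(1 + m : ℤ)] g) := hH.slash _ _
    have e1 : F ∣[(1 - ((m + 1 : ℕ) : ℤ))] g =
        ((g.val.det : ℂ))⁻¹ • ((fun τ : ℍ => denom g τ) * G) := by
      rw [show (1 - ((m + 1 : ℕ) : ℤ)) = (1 - (m : ℤ)) - 1 by push_cast; ring]
      exact slash_pred _ F hg
    rw [e1, iterD_smul _ _ (hj.mul hG), iterD_denom_mul g hG m]
    have e2 : iterD m G = ((g.val.det : ℂ)⁻¹ ^ m) • (H ∣[(1 + m : ℤ)] g) := ih hF
    have e3 : iterD (m + 1) G = ((g.val.det : ℂ)⁻¹ ^ m) • D (H ∣[(1 + m : ℤ)] g) := by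
      rw [iterD_succ', e2, Derivative.normalizedDerivOfComplex_smul _ _ hHs]
    have e4 := Derivative.normalizedDerivOfComplex_slash (k := (1 + m : ℤ)) hH hg
    have e5 : (D H) ∣[((1 + m : ℤ) + 2) - 1] g =
        ((g.val.det : ℂ))⁻¹ • ((fun τ : ℍ => denom g τ) * ((D H) ∣[(1 + m : ℤ) + 2] g)) :=
      slash_pred _ _ hg
    have e6 : iterD (m + 1) F = D H := by rw [iterD_succ']
    rw [e3, e2, e4, e6]
    rw [show (1 + ((m + 1 : ℕ) : ℤ)) = ((1 + m : ℤ) + 2) - 1 by push_cast; ring, e5]
    funext z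
    have hz := denom_ne_zero g z
    simp only [Pi.add_apply, Pi.mul_apply, Pi.smul_apply, smul_eq_mul]
    push_cast
    generalize (g.val.det : ℂ)⁻¹ = δ
    field_simp
    ring

/-- **Bol's identity**: `D^{n+1} (F ∣[-n] g) = det(g)^{-(n+1)} • (D^{n+1} F) ∣[n+2] g`.
Proof: induction on `n` using `Derivative.normalizedDerivOfComplex_slash`. -/
theorem bol (n : ℕ) {F : ℍ → ℂ} (hF : MDiff F) {g : GL (Fin 2) ℝ} (hg : 0 < g.val.det) :
    iterD (n + 1) (F ∣[(-(n : ℤ))] g) =
      ((g.val.det : ℂ)⁻¹ ^ (n + 1)) • (iterD (n + 1) F ∣[((n : ℤ) + 2)] g) := by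
  have h := bol_aux (n + 1) hF hg
  rw [show (1 - ((n + 1 : ℕ) : ℤ)) = -(n : ℤ) by push_cast; ring,
    show (1 + ((n + 1 : ℕ) : ℤ)) = (n : ℤ) + 2 by push_cast; ring] at h
  exact h

end Fermat.Agent.S22
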