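import Mathlib
import Fermat.Prelude.Def_CuspForm_HeckeAlgebra

/-!
# S22 — common definitions

Route: Eichler–Shimura cocycle lattice.  See `Fermat/Agent/S22/PLAN.md`-style comments in
`Fermat/Agent/S22.lean`.
-/

set_option autoImplicit false

namespace Fermat.Agent.S22

open UpperHalfPlane hiding I
open Complex
open scoped Manifold MatrixGroups ModularForm Topology

/-- `m`-fold iterate of the normalised derivative `D = (2πi)⁻¹ d/dz` on functions `ℍ → ℂ`. -/
noncomputable def iterD (m : ℕ) (F : ℍ → ℂ) : ℍ → ℂ :=
  (Derivative.normalizedDerivOfComplex)^[m] F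

@[simp] theorem iterD_zero (F : ℍ → ℂ) : iterD 0 F = F := rfl

theorem iterD_succ (m : ℕ) (F : ℍ → ℂ) :
    iterD (m + 1) F = iterD m (Derivative.normalizedDerivOfComplex F) := rfl

theorem iterD_succ' (m : ℕ) (F : ℍ → ℂ) :
    iterD (m + 1) F = Derivative.normalizedDerivOfComplex (iterD m F) := by
  simp only [iterD, Function.iterate_succ_apply']

end Fermat.Agent.S22
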