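import Fermat.Agent.S22.Poly
import Fermat.Prelude.Thm_CongruenceSubgroup_one_mem_strictPeriods_Gamma0

/-!
# S22 — Eichler integrals of cusp forms, period polynomials, the period lattice
-/

set_option autoImplicit false

namespace Fermat.Agent.S22

open UpperHalfPlane hiding I
open Complex
open scoped Manifold MatrixGroups ModularForm Topology
open Derivative

variable (N : ℕ) [NeZero N]

omit [NeZero N] in
/-- A function invariant under `Γ₀(N)` (weight `w`) has all its `SL(2, ℤ)`-translates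
`N`-periodic (auxiliary version used in this file). -/
theorem cocycle_slash_periodic_aux {w : ℤ} {F : ℍ → ℂ}
    (hF : ∀ γ ∈ CongruenceSubgroup.Gamma0 N, F ∣[w] γ = F) (γ : SL(2, ℤ)) (z : ℍ) :
    (F ∣[w] γ) ((N : ℝ) +ᵥ z) = (F ∣[w] γ) z := by
  set t : SL(2, ℤ) := ModularGroup.T ^ (N : ℤ) with ht
  have htz : t • z = (N : ℝ) +ᵥ z := by
    rw [ht, UpperHalfPlane.modular_T_zpow_smul]; simp
  have hmem : γ * t * γ⁻¹ ∈ CongruenceSubgroup.Gamma0 N := by
    have h1 : t ∈ CongruenceSubgroup.Gamma N :=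
      CongruenceSubgroup.ModularGroup_T_pow_mem_Gamma N N dvd_rfl
    have h2 : γ * t * γ⁻¹ ∈ CongruenceSubgroup.Gamma N :=
      (CongruenceSubgroup.Gamma_normal N).conj_mem t h1 γ
    rw [CongruenceSubgroup.Gamma_mem] at h2
    rw [CongruenceSubgroup.Gamma0_mem]
    exact h2.2.2.1
  have h3 : (F ∣[w] γ) ∣[w] t = F ∣[w] γ := by
    rw [← SlashAction.slash_mul]
    have : γ * t = (γ * t * γ⁻¹) * γ := by group
    rw [this, SlashAction.slash_mul, hF _ hmem]
  have h4 := congrFun h3 z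
  rw [ModularForm.SL_slash_apply (F ∣[w] γ) t z] at h4
  rw [← htz]
  have hden : denom t z = 1 := by
    have hc : (t : Matrix (Fin 2) (Fin 2) ℤ) = !![1, (N : ℤ); 0, 1] := ModularGroup.coe_T_zpow N
    simp [denom, hc]
  rw [hden] at h4
  simpa using h4

/-- A cusp form of level `Γ₀(N)` has an `m`-fold primitive vanishing at `i∞`
(`exists_iterPrimitive` with `h = 1`). -/
theorem exists_eichler_cuspForm {k : ℤ} (m : ℕ) (f : CuspForm (CongruenceSubgroup.Gamma0 N) k) :
    ∃ F : ℍ → ℂ, MDiff F ∧ IsZeroAtImInfty F ∧ iterD m F = ⇑f := by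
  obtain ⟨F, hF, -, hF0, hFD⟩ := exists_iterPrimitive m (CuspFormClass.holo f) one_pos
    (fun z => SlashInvariantForm.vAdd_apply_of_mem_strictPeriods f z
      (CongruenceSubgroup.one_mem_strictPeriods_Gamma0 N))
    (CuspFormClass.zero_at_infty f)
  exact ⟨F, hF, hF0, hFD⟩

/-- Same for the translates `f ∣[k] γ`, `γ ∈ SL(2, ℤ)` (period `N`). -/
theorem exists_eichler_cuspForm_slash {k : ℤ} (m : ℕ)
    (f : CuspForm (CongruenceSubgroup.Gamma0 N) k) (γ : SL(2, ℤ)) :
    ∃ F : ℍ → ℂ, MDiff F ∧ (∀ z : ℍ, F ((N : ℝ) +ᵥ z) = F z) ∧ IsZeroAtImInfty F ∧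
      iterD m F = (⇑f ∣[k] γ) := by
  have hN : (0 : ℝ) < (N : ℝ) := by exact_mod_cast Nat.pos_of_ne_zero (NeZero.ne N)
  refine exists_iterPrimitive m ((CuspFormClass.holo f).slash k _) hN ?_
    (CuspFormClass.zero_at_infty_slash f γ)
  intro z
  exact cocycle_slash_periodic_aux N
    (fun δ hδ => SlashInvariantFormClass.slash_action_eq f _ (Subgroup.mem_map_of_mem _ hδ)) γ z

variable (n : ℕ)

/-- The Eichler integral of a cusp form of weight `n + 2`. -/
noncomputable def E (f : CuspForm (CongruenceSubgroup.Gamma0 N) ((n : ℤ) + 2)) : ℍ → ℂ :=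
  eichler (n + 1) ⇑f

theorem E_spec (f : CuspForm (CongruenceSubgroup.Gamma0 N) ((n : ℤ) + 2)) :
    MDiff (E N n f) ∧ IsZeroAtImInfty (E N n f) ∧ iterD (n + 1) (E N n f) = ⇑f :=
  eichler_spec (exists_eichler_cuspForm N (n + 1) f)

theorem E_add (f g : CuspForm (CongruenceSubgroup.Gamma0 N) ((n : ℤ) + 2)) :
    E N n (f + g) = E N n f + E N n g := by
  obtain ⟨hf1, hf2, hf3⟩ := E_spec N n f
  obtain ⟨hg1, hg2, hg3⟩ := E_spec N n g
  refine eichler_eq (hf1.add hg1) ?_ ?_
  · exact hf2.add hg2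
  · rw [iterD_add _ hf1 hg1, hf3, hg3]; rfl

theorem E_smul (c : ℂ) (f : CuspForm (CongruenceSubgroup.Gamma0 N) ((n : ℤ) + 2)) :
    E N n (c • f) = c • E N n f := by
  obtain ⟨hf1, hf2, hf3⟩ := E_spec N n f
  refine eichler_eq (hf1.const_smul c) ?_ ?_
  · exact hf2.smul c
  · rw [iterD_smul _ c hf1, hf3]; rfl

/-- The period polynomial `E f ∣[-n] γ - E f` (a polynomial of degree `≤ n` when `γ ∈ Γ₀(N)`). -/
noncomputable def periodPoly (f : CuspForm (CongruenceSubgroup.Gamma0 N) ((n : ℤ) + 2))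
    (γ : SL(2, ℤ)) : Polynomial ℂ :=
  polyOf (E N n f ∣[(-(n : ℤ))] γ - E N n f)

/-- Uses `bol` and `exists_poly_of_iterD_eq_zero`. -/
theorem periodPoly_spec (f : CuspForm (CongruenceSubgroup.Gamma0 N) ((n : ℤ) + 2))
    {γ : SL(2, ℤ)} (hγ : γ ∈ CongruenceSubgroup.Gamma0 N) :
    (periodPoly N n f γ).natDegree ≤ n ∧
      ∀ z : ℍ, (E N n f ∣[(-(n : ℤ))] γ) z - E N n f z = (periodPoly N n f γ).eval (z : ℂ) := by
  obtain ⟨hf1, hf2, hf3⟩ := E_spec N n f
  have hdet : ((γ : GL (Fin 2) ℝ).val.det) = 1 := by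
    rw [← Matrix.GeneralLinearGroup.val_det_apply]; simp
  have hslash : MDiff (E N n f ∣[(-(n : ℤ))] γ) := hf1.slash _ _
  have hbol := bol n hf1 (g := (γ : GL (Fin 2) ℝ)) (by rw [hdet]; exact one_pos)
  have hD : iterD (n + 1) (E N n f ∣[(-(n : ℤ))] γ - E N n f) = 0 := by
    rw [iterD_sub _ hslash hf1, ModularForm.SL_slash, hbol, hf3, hdet]
    have : (⇑f ∣[(n : ℤ) + 2] (γ : GL (Fin 2) ℝ)) = ⇑f :=
      SlashInvariantFormClass.slash_action_eq f _ (Subgroup.mem_map_of_mem _ hγ)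
    rw [this]
    simp
  obtain ⟨P, hPdeg, hP⟩ := exists_poly_of_iterD_eq_zero (n + 1) (hslash.sub hf1) hD
  have hPP : periodPoly N n f γ = P := polyOf_eq hP
  rw [hPP]
  refine ⟨?_, fun z => hP z⟩
  rcases eq_or_ne P 0 with rfl | hP0
  · simp
  · have := (Polynomial.natDegree_lt_iff_degree_lt hP0).mpr hPdeg
    omega

theorem periodPoly_add (f g : CuspForm (CongruenceSubgroup.Gamma0 N) ((n : ℤ) + 2))
    {γ : SL(2, ℤ)} (hγ : γ ∈ CongruenceSubgroup.Gamma0 N) :
    periodPoly N n (f + g) γ = periodPoly N n f γ + periodPoly N n g γ := by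
  apply poly_ext_upperHalfPlane
  intro z
  rw [Polynomial.eval_add, ← (periodPoly_spec N n f hγ).2 z, ← (periodPoly_spec N n g hγ).2 z,
    ← (periodPoly_spec N n (f + g) hγ).2 z, E_add, SlashAction.add_slash]
  simp only [Pi.add_apply]
  ring

theorem periodPoly_smul (c : ℂ) (f : CuspForm (CongruenceSubgroup.Gamma0 N) ((n : ℤ) + 2))
    {γ : SL(2, ℤ)} (hγ : γ ∈ CongruenceSubgroup.Gamma0 N) :
    periodPoly N n (c • f) γ = c • periodPoly N n f γ := by
  apply poly_ext_upperHalfPlane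
  intro z
  rw [Polynomial.eval_smul, ← (periodPoly_spec N n f hγ).2 z,
    ← (periodPoly_spec N n (c • f) hγ).2 z, E_smul, ModularForm.SL_smul_slash]
  simp only [Pi.smul_apply, smul_eq_mul]
  ring

/-- Cocycle relation. -/
theorem periodPoly_mul (f : CuspForm (CongruenceSubgroup.Gamma0 N) ((n : ℤ) + 2))
    {γ₁ γ₂ : SL(2, ℤ)} (h₁ : γ₁ ∈ CongruenceSubgroup.Gamma0 N)
    (h₂ : γ₂ ∈ CongruenceSubgroup.Gamma0 N) :
    periodPoly N n f (γ₁ * γ₂) =
      polyAct n (γ₂ : Matrix (Fin 2) (Fin 2) ℤ) (periodPoly N n f γ₁) + periodPoly N n f γ₂ := by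
  apply poly_ext_upperHalfPlane
  intro z
  obtain ⟨hd1, hs1⟩ := periodPoly_spec N n f h₁
  obtain ⟨-, hs2⟩ := periodPoly_spec N n f h₂
  obtain ⟨-, hs12⟩ := periodPoly_spec N n f (mul_mem h₁ h₂)
  rw [Polynomial.eval_add, ← hs12 z, ← hs2 z]
  have key : (fun z : ℍ => (periodPoly N n f γ₁).eval (z : ℂ)) =
      E N n f ∣[(-(n : ℤ))] γ₁ - E N n f := by
    funext w; rw [← hs1 w]; rfl
  have h3 := congrFun (slash_polyFun_SL n γ₂ (periodPoly N n f γ₁) hd1) z
  rw [key] at h3
  rw [← h3, SlashAction.slash_mul, sub_eq_add_neg (E N n f ∣[(-(n : ℤ))] γ₁),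
    SlashAction.add_slash, SlashAction.neg_slash]
  simp only [Pi.add_apply, Pi.neg_apply]
  ring

theorem periodPoly_one (f : CuspForm (CongruenceSubgroup.Gamma0 N) ((n : ℤ) + 2)) :
    periodPoly N n f 1 = 0 := by
  apply polyOf_eq
  intro z
  rw [SlashAction.slash_one]
  simp

/-- The coefficient functionals of the period polynomials. -/
noncomputable def periodCoeff (γ : CongruenceSubgroup.Gamma0 N) (j : ℕ) :
    Module.Dual ℂ (CuspForm (CongruenceSubgroup.Gamma0 N) ((n : ℤ) + 2)) where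
  toFun f := (periodPoly N n f γ).coeff j
  map_add' f g := by rw [periodPoly_add N n f g γ.2, Polynomial.coeff_add]
  map_smul' c f := by
    rw [periodPoly_smul N n c f γ.2, Polynomial.coeff_smul, RingHom.id_apply]

@[simp] theorem periodCoeff_apply (γ : CongruenceSubgroup.Gamma0 N) (j : ℕ)
    (f : CuspForm (CongruenceSubgroup.Gamma0 N) ((n : ℤ) + 2)) :
    periodCoeff N n γ j f = (periodPoly N n f γ).coeff j := rfl

/-- The period lattice: `ℤ`-span of all coefficient functionals of period polynomials. -/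
noncomputable def periodLattice :
    Submodule ℤ (Module.Dual ℂ (CuspForm (CongruenceSubgroup.Gamma0 N) ((n : ℤ) + 2))) :=
  Submodule.span ℤ (Set.range fun p : CongruenceSubgroup.Gamma0 N × Fin (n + 1) =>
    periodCoeff N n p.1 p.2)

theorem periodCoeff_mem (γ : CongruenceSubgroup.Gamma0 N) (j : ℕ) (hj : j ≤ n) :
    periodCoeff N n γ j ∈ periodLattice N n :=
  Submodule.subset_span ⟨(γ, ⟨j, Nat.lt_succ_of_le hj⟩), rfl⟩

/-- If `φ f = ∑ i ≤ n, m i * coeff i (periodPoly f γ)` with integers `m i` then `φ ∈ periodLattice`.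
(Convenient membership criterion.) -/
theorem mem_periodLattice_of_int_comb
    (φ : Module.Dual ℂ (CuspForm (CongruenceSubgroup.Gamma0 N) ((n : ℤ) + 2)))
    {ι : Type*} (s : Finset ι) (γ : ι → CongruenceSubgroup.Gamma0 N) (m : ι → ℕ → ℤ)
    (h : ∀ f, φ f = ∑ x ∈ s, ∑ i ∈ Finset.range (n + 1),
      (m x i : ℂ) * (periodPoly N n f (γ x)).coeff i) :
    φ ∈ periodLattice N n := by
  have hφ : φ = ∑ x ∈ s, ∑ i ∈ Finset.range (n + 1), (m x i) • periodCoeff N n (γ x) i := by
    apply LinearMap.ext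
    intro f
    rw [h f]
    simp only [LinearMap.coe_sum, Finset.sum_apply, LinearMap.smul_apply, periodCoeff_apply,
      zsmul_eq_mul]
  rw [hφ]
  refine Submodule.sum_mem _ fun x _ => Submodule.sum_mem _ fun i hi => ?_
  exact Submodule.smul_mem _ _ (periodCoeff_mem N n (γ x) i
    (Nat.lt_succ_iff.mp (Finset.mem_range.mp hi)))

/-- `Γ₀(N)` is a finitely generated group (Schreier). -/
theorem cocycle_gamma0_fg : (CongruenceSubgroup.Gamma0 N).FG := by
  have h1 : Group.FG SL(2, ℤ) := by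
    rw [Group.fg_iff]
    exact ⟨{ModularGroup.S, ModularGroup.T}, SpecialLinearGroup.SL2Z_generators, by simp⟩
  have h2 : Group.FG (CongruenceSubgroup.Gamma0 N) := Subgroup.fg_of_index_ne_zero _
  exact (Group.fg_iff_subgroup_fg _).mp h2

/-- The period lattice is finitely generated: `Γ₀(N)` is a finitely generated group
(`Subgroup.fg_of_index_ne_zero`) and the cocycle relation expresses the coefficients of
`periodPoly f (γ₁ γ₂)` and `periodPoly f γ⁻¹` as integer combinations. -/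
theorem periodLattice_fg : (periodLattice N n).FG := by
  obtain ⟨S, hS⟩ := cocycle_gamma0_fg N
  classical
  -- the finite generating family
  let gen : Set (Module.Dual ℂ (CuspForm (CongruenceSubgroup.Gamma0 N) ((n : ℤ) + 2))) :=
    ⋃ g ∈ S, ⋃ j ∈ Finset.range (n + 1),
      {φ | ∃ hg : g ∈ CongruenceSubgroup.Gamma0 N, φ = periodCoeff N n ⟨g, hg⟩ j}
  have hgenfin : gen.Finite := by
    refine Set.Finite.biUnion S.finite_toSet fun g _ => ?_
    refine Set.Finite.biUnion (Finset.finite_toSet _) fun j _ => ?_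
    by_cases hg : g ∈ CongruenceSubgroup.Gamma0 N
    · refine Set.Finite.subset (Set.finite_singleton (periodCoeff N n ⟨g, hg⟩ j)) ?_
      rintro φ ⟨_, rfl⟩; rfl
    · refine Set.Finite.subset Set.finite_empty ?_
      rintro φ ⟨hg', -⟩; exact (hg hg').elim
  have key : ∀ g (hg : g ∈ Subgroup.closure (S : Set SL(2, ℤ))),
      ∀ (hg' : g ∈ CongruenceSubgroup.Gamma0 N) (j : ℕ), j ≤ n →
        periodCoeff N n ⟨g, hg'⟩ j ∈ Submodule.span ℤ gen := by
    intro g hg
    induction hg using Subgroup.closure_induction with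
    | mem x hx =>
      intro hg' j hj
      refine Submodule.subset_span ?_
      simp only [gen, Set.mem_iUnion]
      exact ⟨x, hx, j, Finset.mem_range.mpr (Nat.lt_succ_of_le hj), hg', rfl⟩
    | one =>
      intro hg' j hj
      have : periodCoeff N n ⟨1, hg'⟩ j = 0 := by
        apply LinearMap.ext; intro f
        simp [periodPoly_one]
      rw [this]; exact Submodule.zero_mem _
    | mul x y hx hy ihx ihy =>
      intro hg' j hj
      have hx' : x ∈ CongruenceSubgroup.Gamma0 N := hS ▸ hx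
      have hy' : y ∈ CongruenceSubgroup.Gamma0 N := hS ▸ hy
      have : periodCoeff N n ⟨x * y, hg'⟩ j =
          (∑ i ∈ Finset.range (n + 1),
            (polyActCoeff n (y : Matrix (Fin 2) (Fin 2) ℤ) j i) • periodCoeff N n ⟨x, hx'⟩ i)
            + periodCoeff N n ⟨y, hy'⟩ j := by
        apply LinearMap.ext; intro f
        simp only [periodCoeff_apply, LinearMap.add_apply, LinearMap.coe_sum, Finset.sum_apply,
          LinearMap.smul_apply, zsmul_eq_mul]
        rw [periodPoly_mul N n f hx' hy', Polynomial.coeff_add, coeff_polyAct]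
      rw [this]
      refine Submodule.add_mem _ (Submodule.sum_mem _ fun i hi => ?_) (ihy hy' j hj)
      exact Submodule.smul_mem _ _ (ihx hx' i (Nat.lt_succ_iff.mp (Finset.mem_range.mp hi)))
    | inv x hx ihx =>
      intro hg' j hj
      have hx' : x ∈ CongruenceSubgroup.Gamma0 N := hS ▸ hx
      have : periodCoeff N n ⟨x⁻¹, hg'⟩ j =
          - (∑ i ∈ Finset.range (n + 1),
            (polyActCoeff n ((x⁻¹ : SL(2, ℤ)) : Matrix (Fin 2) (Fin 2) ℤ) j i) •
              periodCoeff N n ⟨x, hx'⟩ i) := by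
        apply LinearMap.ext; intro f
        simp only [periodCoeff_apply, LinearMap.neg_apply, LinearMap.coe_sum, Finset.sum_apply,
          LinearMap.smul_apply, zsmul_eq_mul]
        have h1 := periodPoly_mul N n f hx' hg'
        rw [mul_inv_cancel, periodPoly_one] at h1
        have h2 : periodPoly N n f x⁻¹ =
            - polyAct n ((x⁻¹ : SL(2, ℤ)) : Matrix (Fin 2) (Fin 2) ℤ) (periodPoly N n f x) := by
          rw [eq_neg_iff_add_eq_zero, add_comm]; exact h1.symm
        rw [h2, Polynomial.coeff_neg, coeff_polyAct]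
      rw [this]
      refine Submodule.neg_mem _ (Submodule.sum_mem _ fun i hi => ?_)
      exact Submodule.smul_mem _ _ (ihx hx' i (Nat.lt_succ_iff.mp (Finset.mem_range.mp hi)))
  have heq : periodLattice N n = Submodule.span ℤ gen := by
    apply le_antisymm
    · rw [periodLattice, Submodule.span_le]
      rintro φ ⟨⟨γ, j⟩, rfl⟩
      exact key γ.1 (by rw [hS]; exact γ.2) γ.2 j (Nat.lt_succ_iff.mp j.2)
    · rw [Submodule.span_le]
      intro φ hφ
      simp only [gen, Set.mem_iUnion] at hφ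
      obtain ⟨g, -, j, hj, hg, rfl⟩ := hφ
      exact periodCoeff_mem N n ⟨g, hg⟩ j (Nat.lt_succ_iff.mp (Finset.mem_range.mp hj))
  rw [heq]
  exact Submodule.fg_span hgenfin

end Fermat.Agent.S22
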