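import Fermat.Agent.S22.Analysis

/-!
# S22 — polynomial functions on `ℍ` and the weight `-n` action of integer matrices
-/

set_option autoImplicit false

namespace Fermat.Agent.S22

open UpperHalfPlane hiding I
open Complex
open scoped Manifold MatrixGroups ModularForm Topology
open Derivative

theorem poly_ext_upperHalfPlane {P Q : Polynomial ℂ}
    (h : ∀ z : ℍ, P.eval (z : ℂ) = Q.eval (z : ℂ)) : P = Q := by
  refine Polynomial.eq_of_infinite_eval_eq P Q ?_
  have hinj : Function.Injective (fun n : ℕ => ((n : ℂ) + Complex.I)) := by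
    intro a b hab
    have := congrArg Complex.re hab
    simpa using this
  refine Set.infinite_of_injective_forall_mem hinj (fun n => ?_)
  have him : 0 < ((n : ℂ) + Complex.I).im := by simp
  exact h ⟨_, him⟩

open Classical in
noncomputable def polyOf (H : ℍ → ℂ) : Polynomial ℂ :=
  if h : ∃ P : Polynomial ℂ, ∀ z : ℍ, H z = P.eval (z : ℂ) then h.choose else 0

theorem polyOf_eq {H : ℍ → ℂ} {P : Polynomial ℂ} (h : ∀ z : ℍ, H z = P.eval (z : ℂ)) :
    polyOf H = P := by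
  have hex : ∃ P : Polynomial ℂ, ∀ z : ℍ, H z = P.eval (z : ℂ) := ⟨P, h⟩
  rw [polyOf, dif_pos hex]
  exact poly_ext_upperHalfPlane fun z => (hex.choose_spec z).symm.trans (h z)

noncomputable def polyAct (n : ℕ) (A : Matrix (Fin 2) (Fin 2) ℤ) (P : Polynomial ℂ) :
    Polynomial ℂ :=
  ∑ i ∈ Finset.range (n + 1), Polynomial.C (P.coeff i) *
    ((Polynomial.C (A 0 0 : ℂ) * Polynomial.X + Polynomial.C (A 0 1 : ℂ)) ^ i *
     (Polynomial.C (A 1 0 : ℂ) * Polynomial.X + Polynomial.C (A 1 1 : ℂ)) ^ (n - i))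

noncomputable def polyActCoeff (n : ℕ) (A : Matrix (Fin 2) (Fin 2) ℤ) (j i : ℕ) : ℤ :=
  ((Polynomial.C (A 0 0) * Polynomial.X + Polynomial.C (A 0 1) : Polynomial ℤ) ^ i *
     (Polynomial.C (A 1 0) * Polynomial.X + Polynomial.C (A 1 1) : Polynomial ℤ) ^ (n - i)).coeff j

theorem coeff_polyAct (n : ℕ) (A : Matrix (Fin 2) (Fin 2) ℤ) (P : Polynomial ℂ) (j : ℕ) :
    (polyAct n A P).coeff j =
      ∑ i ∈ Finset.range (n + 1), (polyActCoeff n A j i : ℂ) * P.coeff i := by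
  rw [polyAct, Polynomial.finsetSum_coeff]
  refine Finset.sum_congr rfl fun i _ => ?_
  rw [Polynomial.coeff_C_mul, mul_comm, polyActCoeff]
  congr 1
  have : ((Polynomial.C (A 0 0 : ℂ) * Polynomial.X + Polynomial.C (A 0 1 : ℂ)) ^ i *
      (Polynomial.C (A 1 0 : ℂ) * Polynomial.X + Polynomial.C (A 1 1 : ℂ)) ^ (n - i)) =
      Polynomial.map (Int.castRingHom ℂ)
        ((Polynomial.C (A 0 0) * Polynomial.X + Polynomial.C (A 0 1) : Polynomial ℤ) ^ i *
          (Polynomial.C (A 1 0) * Polynomial.X + Polynomial.C (A 1 1) : Polynomial ℤ) ^ (n - i)) := by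
    simp
  rw [this, Polynomial.coeff_map]
  simp

theorem natDegree_polyAct_le (n : ℕ) (A : Matrix (Fin 2) (Fin 2) ℤ) (P : Polynomial ℂ) :
    (polyAct n A P).natDegree ≤ n := by
  rw [polyAct]
  refine Polynomial.natDegree_sum_le_of_forall_le _ _ fun i hi => ?_
  have hi' : i ≤ n := Nat.lt_succ_iff.mp (Finset.mem_range.mp hi)
  refine (Polynomial.natDegree_C_mul_le _ _).trans ?_
  refine Polynomial.natDegree_mul_le.trans ?_
  have h1 : ((Polynomial.C (A 0 0 : ℂ) * Polynomial.X + Polynomial.C (A 0 1 : ℂ)) ^ i).natDegree ≤ i := by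
    refine Polynomial.natDegree_pow_le.trans ?_
    have : (Polynomial.C (A 0 0 : ℂ) * Polynomial.X + Polynomial.C (A 0 1 : ℂ)).natDegree ≤ 1 :=
      Polynomial.natDegree_linear_le
    calc i * _ ≤ i * 1 := Nat.mul_le_mul_left i this
      _ = i := mul_one i
  have h2 : ((Polynomial.C (A 1 0 : ℂ) * Polynomial.X + Polynomial.C (A 1 1 : ℂ)) ^ (n - i)).natDegree ≤ n - i := by
    refine Polynomial.natDegree_pow_le.trans ?_
    have : (Polynomial.C (A 1 0 : ℂ) * Polynomial.X + Polynomial.C (A 1 1 : ℂ)).natDegree ≤ 1 :=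
      Polynomial.natDegree_linear_le
    calc (n - i) * _ ≤ (n - i) * 1 := Nat.mul_le_mul_left _ this
      _ = n - i := mul_one _
  omega

theorem polyAct_add (n : ℕ) (A : Matrix (Fin 2) (Fin 2) ℤ) (P Q : Polynomial ℂ) :
    polyAct n A (P + Q) = polyAct n A P + polyAct n A Q := by
  simp only [polyAct, Polynomial.coeff_add, Polynomial.C_add, add_mul, Finset.sum_add_distrib]

theorem polyAct_smul (n : ℕ) (A : Matrix (Fin 2) (Fin 2) ℤ) (c : ℂ) (P : Polynomial ℂ) :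
    polyAct n A (c • P) = c • polyAct n A P := by
  rw [polyAct, polyAct, Finset.smul_sum]
  refine Finset.sum_congr rfl fun i _ => ?_
  rw [Polynomial.coeff_smul, smul_eq_mul, Polynomial.C_mul, Polynomial.smul_eq_C_mul, mul_assoc]

theorem eval_polyAct (n : ℕ) (A : Matrix (Fin 2) (Fin 2) ℤ) (P : Polynomial ℂ) (z : ℂ) :
    (polyAct n A P).eval z = ∑ i ∈ Finset.range (n + 1), P.coeff i *
      (((A 0 0 : ℂ) * z + (A 0 1 : ℂ)) ^ i * ((A 1 0 : ℂ) * z + (A 1 1 : ℂ)) ^ (n - i)) := by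
  simp [polyAct, Polynomial.eval_finsetSum]

theorem slash_polyFun (n : ℕ) (A : Matrix (Fin 2) (Fin 2) ℤ) (g : GL (Fin 2) ℝ)
    (hgA : ∀ i j, g.val i j = (A i j : ℝ)) (hg : 0 < g.val.det)
    (P : Polynomial ℂ) (hP : P.natDegree ≤ n) :
    ((fun z : ℍ => P.eval (z : ℂ)) ∣[(-(n : ℤ))] g) =
      fun z : ℍ => ((g.val.det : ℂ)⁻¹ ^ (n + 1)) * (polyAct n A P).eval (z : ℂ) := by
  have hdet : g.det.val = g.val.det := Matrix.GeneralLinearGroup.val_det_apply g
  have hg' : 0 < g.det.val := hdet ▸ hg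
  have hdetℂ : (g.val.det : ℂ) ≠ 0 := Complex.ofReal_ne_zero.mpr hg.ne'
  funext z
  have hden : denom g z ≠ 0 := denom_ne_zero g z
  rw [ModularForm.slash_apply, UpperHalfPlane.σ, if_pos hg', ContinuousAlgEquiv.refl_apply,
    coe_smul_of_det_pos hg', hdet, abs_of_pos hg, eval_polyAct, neg_neg, zpow_natCast,
    Polynomial.eval_eq_sum_range' (Nat.lt_succ_of_le hP)]
  have hnum : num g z = (A 0 0 : ℂ) * z + (A 0 1 : ℂ) := by
    simp only [num]
    rw [show (g 0 0 : ℝ) = g.val 0 0 from rfl, show (g 0 1 : ℝ) = g.val 0 1 from rfl, hgA, hgA]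
    push_cast; ring
  have hdenom : denom g z = (A 1 0 : ℂ) * z + (A 1 1 : ℂ) := by
    simp only [denom]
    rw [show (g 1 0 : ℝ) = g.val 1 0 from rfl, show (g 1 1 : ℝ) = g.val 1 1 from rfl, hgA, hgA]
    push_cast; ring
  rw [← hnum, ← hdenom]
  have hz : ((g.val.det : ℝ) : ℂ) ^ (-(n : ℤ) - 1) = ((g.val.det : ℂ))⁻¹ ^ (n + 1) := by
    rw [show (-(n : ℤ) - 1) = -((n + 1 : ℕ) : ℤ) by push_cast; ring, zpow_neg, zpow_natCast,
      inv_pow]
  rw [hz, Finset.sum_mul, Finset.sum_mul, Finset.mul_sum]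
  refine Finset.sum_congr rfl fun i hi => ?_
  have hi' : i ≤ n := Nat.lt_succ_iff.mp (Finset.mem_range.mp hi)
  have : denom g z ^ n = denom g z ^ i * denom g z ^ (n - i) := by
    rw [← pow_add]; congr 1; omega
  rw [this, div_pow]
  field_simp

theorem slash_polyFun_SL (n : ℕ) (γ : SL(2, ℤ)) (P : Polynomial ℂ) (hP : P.natDegree ≤ n) :
    ((fun z : ℍ => P.eval (z : ℂ)) ∣[(-(n : ℤ))] γ) =
      fun z : ℍ => (polyAct n (γ : Matrix (Fin 2) (Fin 2) ℤ) P).eval (z : ℂ) := by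
  have hdet : ((γ : GL (Fin 2) ℝ)).val.det = 1 := by
    rw [← Matrix.GeneralLinearGroup.val_det_apply]; simp
  rw [ModularForm.SL_slash, slash_polyFun n (γ : Matrix (Fin 2) (Fin 2) ℤ) (γ : GL (Fin 2) ℝ)
    (fun i j => by simp) (by rw [hdet]; exact one_pos) P hP]
  funext z
  rw [hdet]
  simp

open Classical in
noncomputable def eichler (m : ℕ) (f : ℍ → ℂ) : ℍ → ℂ :=
  if h : ∃ F : ℍ → ℂ, MDiff F ∧ IsZeroAtImInfty F ∧ iterD m F = f then h.choose else 0

theorem eichler_spec {m : ℕ} {f : ℍ → ℂ}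
    (h : ∃ F : ℍ → ℂ, MDiff F ∧ IsZeroAtImInfty F ∧ iterD m F = f) :
    MDiff (eichler m f) ∧ IsZeroAtImInfty (eichler m f) ∧ iterD m (eichler m f) = f := by
  rw [eichler, dif_pos h]
  exact h.choose_spec

theorem eichler_eq {m : ℕ} {f F : ℍ → ℂ} (hF : MDiff F) (h0 : IsZeroAtImInfty F)
    (hD : iterD m F = f) : eichler m f = F := by
  have hex : ∃ F : ℍ → ℂ, MDiff F ∧ IsZeroAtImInfty F ∧ iterD m F = f := ⟨F, hF, h0, hD⟩
  obtain ⟨h1, h2, h3⟩ := eichler_spec hex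
  exact eq_of_iterD_eq m h1 hF h2 h0 (h3.trans hD.symm)

end Fermat.Agent.S22
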